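import Fermat.Agent.GoodRed.Level
import Fermat.Agent.S27.Export
import Fermat.Agent.FF.Along
import Fermat.Agent.Igusa.Degree

/-!
# The genus inequality at every level prime to the residue characteristic
-/

set_option autoImplicit false

noncomputable section

open AlgebraicCurve ModularCurve WithZero Module
open scoped IntermediateField Fermat.Agent.GaussVal
open Fermat.Agent.RR Fermat.Agent.FF Fermat.Agent.Deuring Fermat.Agent.GaussVal

namespace Fermat.Agent.GoodRed

/-- Above every place there is a place with ramification index at most the degree. -/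
theorem exists_place_above {k E E' : Type*} [Field k] [Field E] [Field E'] [Algebra k E]
    [Algebra k E'] [IsAlgClosed k] [IsFF k E] [IsFF k E'] (φ : E →ₐ[k] E') (w : Place k E) :
    ∃ (w' : Place k E') (e : ℕ), 0 < e ∧ e ≤ finrankAlong k φ ∧
      ∀ h : E, w'.ord (φ h) = e * w.ord h := by
  classical
  have hφ := isIntegralAlong φ
  have hFI := fundamentalIdentityAlong φ hφ
  letI := algebraAlong φ
  haveI := isScalarTower_along φ
  haveI := isIntegral_along φ hφ
  haveI : Module.Finite E E' := finiteAlong φ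
  haveI hFI' : FundamentalIdentity k E E' := hFI
  have h1 := hFI'.sum_ramificationIndex_mul_deg w
  have h2 : ∀ w' : Place k E', (w'.deg : ℤ) = 1 := fun w' => by
    rw [Fermat.Agent.FF.deg_eq_one]; rfl
  have h3 : (w.deg : ℤ) = 1 := by rw [Fermat.Agent.FF.deg_eq_one]; rfl
  have hpos : 0 < Module.finrank E E' := Module.finrank_pos
  simp only [h2, h3, mul_one] at h1
  have hne : (w.fiber E').Nonempty := by
    by_contra hcon
    rw [Finset.not_nonempty_iff_eq_empty] at hcon
    rw [hcon, Finset.sum_empty] at h1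
    omega
  obtain ⟨w', hw'⟩ := hne
  refine ⟨w', w'.ramificationIndex E, w'.ramificationIndex_pos, ?_, ?_⟩
  · have h4 : ((w'.ramificationIndex E : ℕ) : ℤ) ≤ ∑ u ∈ w.fiber E', (u.ramificationIndex E : ℤ) :=
      Finset.single_le_sum (f := fun u : Place k E' => (u.ramificationIndex E : ℤ))
        (fun u _ => Int.natCast_nonneg _) hw'
    rw [h1] at h4
    exact_mod_cast h4
  · intro h
    have h5 := w'.ord_restrict (F := E) h
    rw [Place.mem_fiber.mp hw'] at h5
    exact h5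

section Abstract

variable {K F k F' F₂ F₂' : Type*} [Field K] [Field F] [Algebra K F] [Field k] [Field F']
  [Algebra k F'] [Field F₂] [Algebra K F₂] [Field F₂'] [Algebra k F₂'] [IsAlgClosed K]
  [IsAlgClosed k] [IsFF K F] [IsFF k F'] [IsFF K F₂] [IsFF k F₂']

/-- The reduced Kummer divisor. -/
theorem exists_red_div {G : GaussData K F k F'} {G₂ : GaussData K F₂ k F₂'} (R : RedMap G₂)
    (φ : F →ₐ[K] F₂) (φb : F' →ₐ[k] F₂') (hmem : ∀ x ∈ G.O, φ x ∈ G₂.O)
    (hρ : ∀ (x : F) (hx : x ∈ G.O), G₂.ρ ⟨φ x, hmem x hx⟩ = φb (G.ρ ⟨x, hx⟩))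
    {r : ℕ} (hr : r.Prime) (hrn : finrankAlong k φb < r) {D : Divisor K F} {f : F}
    (hf : f ∈ G.O) (hf0 : G.ρ ⟨f, hf⟩ ≠ 0) (hD : ∀ v, v.ord f = r * D v) :
    ∃ D' : Divisor k F', Divisor.degree D' = 0 ∧ ∀ w, w.ord (G.ρ ⟨f, hf⟩) = r * D' w := by
  classical
  have hf00 : f ≠ 0 := by
    rintro rfl
    exact hf0 (map_zero G.ρ)
  have hdvd : ∀ w : Place k F', (r : ℤ) ∣ w.ord (G.ρ ⟨f, hf⟩) := by
    intro w
    obtain ⟨w', e, he0, hen, he⟩ := exists_place_above φb w
    have h1 : G₂.ρ ⟨φ f, hmem f hf⟩ ≠ 0 := by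
      rw [hρ f hf]
      exact (map_ne_zero φb).mpr hf0
    have h2 := R.r_div (φ f) (hmem f hf) h1
    have hφ := isIntegralAlong φ
    have h3 : (div (φ f) : Divisor K F₂) = r • Divisor.pullbackAlong φ hφ D := by
      ext v
      rw [div_apply, Place.ord_restrictAlong φ hφ v f, hD, Finsupp.smul_apply,
        Divisor.pullbackAlong_apply, nsmul_eq_mul]
      ring
    rw [h3, map_nsmul] at h2
    have h4 := DFunLike.congr_fun h2 w'
    rw [Finsupp.smul_apply, div_apply, hρ f hf, he, nsmul_eq_mul] at h4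
    have h5 : (r : ℤ) ∣ e * w.ord (G.ρ ⟨f, hf⟩) := ⟨_, h4.symm⟩
    have h6 : IsCoprime (r : ℤ) (e : ℤ) := by
      rw [Int.isCoprime_iff_gcd_eq_one, Int.gcd_natCast_natCast]
      exact (Nat.Prime.coprime_iff_not_dvd hr).mpr fun h => by
        have := Nat.le_of_dvd he0 h
        omega
    exact h6.dvd_of_dvd_mul_left h5
  have hr0 : (r : ℤ) ≠ 0 := by exact_mod_cast hr.ne_zero
  refine ⟨(div (G.ρ ⟨f, hf⟩) : Divisor k F').mapRange (fun z => z / (r : ℤ)) (by simp), ?_, ?_⟩
  · have h7 : r • (div (G.ρ ⟨f, hf⟩) : Divisor k F').mapRange (fun z => z / (r : ℤ)) (by simp) =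
        div (G.ρ ⟨f, hf⟩) := by
      ext w
      rw [Finsupp.smul_apply, Finsupp.mapRange_apply, div_apply, nsmul_eq_mul]
      exact Int.mul_ediv_cancel' (hdvd w)
    have h8 := congrArg (Divisor.degree (K := k) (F := F')) h7
    rw [map_nsmul, degree_div, nsmul_eq_mul] at h8
    rcases mul_eq_zero.mp h8 with h | h
    · exact absurd h hr0
    · exact h
  · intro w
    rw [Finsupp.mapRange_apply, div_apply]
    exact (Int.mul_ediv_cancel' (hdvd w)).symm

/-- **The genus inequality** from torsion injectivity and good reduction of a cover. -/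
theorem genusFF_le_of_cover {G : GaussData K F k F'} {G₂ : GaussData K F₂ k F₂'} (R : RedMap G₂)
    (φ : F →ₐ[K] F₂) (φb : F' →ₐ[k] F₂') (hmem : ∀ x ∈ G.O, φ x ∈ G₂.O)
    (hρ : ∀ (x : F) (hx : x ∈ G.O), G₂.ρ ⟨φ x, hmem x hx⟩ = φb (G.ρ ⟨x, hx⟩))
    (TK : S18aux.TorsKummer G) {r : ℕ} (hr : r.Prime) (hrn : finrankAlong k φb < r)
    (hrK : (r : K) ≠ 0) (hrk : (r : k) ≠ 0) : genusFF K F ≤ genusFF k F' := by
  classical
  have hr0 : (r : ℤ) ≠ 0 := by exact_mod_cast hr.ne_zero
  have hex : ∀ x : Pic0.torsion K F r, ∃ (D : Divisor.degZero (K := K) (F := F)) (f : F)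
      (hf : f ∈ G.O) (D' : Divisor.degZero (K := k) (F := F')), Pic0.mk D = (x : Pic0 K F) ∧
      G.ρ ⟨f, hf⟩ ≠ 0 ∧ (∀ v, v.ord f = r * (D : Divisor K F) v) ∧
      ∀ w, w.ord (G.ρ ⟨f, hf⟩) = r * (D' : Divisor k F') w := by
    rintro ⟨x, hx⟩
    obtain ⟨D, rfl⟩ := Pic0.mk_surjective x
    rw [Pic0.mem_torsion] at hx
    have h1 : Pic0.mk ((r : ℤ) • D) = 0 := hx
    have h2 : ((r : ℤ) • D : Divisor.degZero (K := K) (F := F)) ∈
        (Divisor.principal (K := K) (F := F)).addSubgroupOf (Divisor.degZero (K := K) (F := F)) :=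
      (QuotientAddGroup.eq_zero_iff _).mp h1
    obtain ⟨f, hf0, hf⟩ := AddSubgroup.mem_addSubgroupOf.mp h2
    have hfD : ∀ v : Place K F, v.ord f = r * (D : Divisor K F) v := by
      intro v
      rw [← hf v]
      change ((r : ℤ) • (D : Divisor K F)) v = _
      rw [Finsupp.smul_apply, smul_eq_mul]
    obtain ⟨c, hc0, hc, hρc⟩ := G.exists_scale hf0
    have hcD : ∀ v : Place K F, v.ord (c • f) = r * (D : Divisor K F) v := by
      intro v
      rw [Algebra.smul_def, v.ord_mul ((map_ne_zero _).mpr hc0) hf0, FF.ord_algebraMap, zero_add,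
        hfD]
    obtain ⟨D', hD'0, hD'⟩ := exists_red_div R φ φb hmem hρ hr hrn hc hρc hcD
    exact ⟨D, c • f, hc, ⟨D', hD'0⟩, rfl, hρc, hcD, hD'⟩
  choose D f hf D' h1 h2 h3 h4 using hex
  have hmap : ∀ x, Pic0.mk (D' x) ∈ Pic0.torsion k F' r := by
    intro x
    rw [Pic0.mem_torsion]
    change Pic0.mk ((r : ℤ) • D' x) = 0
    refine (QuotientAddGroup.eq_zero_iff _).mpr ?_
    refine AddSubgroup.mem_addSubgroupOf.mpr ⟨G.ρ ⟨f x, hf x⟩, h2 x, fun w => ?_⟩
    rw [h4 x w]
    change ((r : ℤ) • (D' x : Divisor k F')) w = _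
    rw [Finsupp.smul_apply, smul_eq_mul]
  let Θ : Pic0.torsion K F r → Pic0.torsion k F' r := fun x => ⟨Pic0.mk (D' x), hmap x⟩
  have hinj : Function.Injective Θ := by
    intro x y hxy
    have h5 : Pic0.mk (D' x) = Pic0.mk (D' y) := congrArg Subtype.val hxy
    have h6 : Pic0.mk (D' x - D' y) = 0 := by
      have : Pic0.mk (D' x - D' y) = Pic0.mk (D' x) - Pic0.mk (D' y) := rfl
      rw [this, h5, sub_self]
    obtain ⟨g, hg0, hg⟩ := AddSubgroup.mem_addSubgroupOf.mp ((QuotientAddGroup.eq_zero_iff _).mp h6)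
    -- the reductions differ by an `r`-th power
    have hfx0 : f x ≠ 0 := by
      intro h
      apply h2 x
      have : (⟨f x, hf x⟩ : G.O) = 0 := Subtype.ext h
      rw [this, map_zero]
    have hfy0 : f y ≠ 0 := by
      intro h
      apply h2 y
      have : (⟨f y, hf y⟩ : G.O) = 0 := Subtype.ext h
      rw [this, map_zero]
    have hyinv : (f y)⁻¹ ∈ G.O := by
      have h7 := (G.ρ_eq_zero_iff ⟨f y, hf y⟩).not.mp (h2 y)
      rw [ValuationSubring.mem_nonunits_iff_exists_mem_maximalIdeal] at h7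
      push Not at h7
      have h8 : IsUnit (⟨f y, hf y⟩ : G.O) := by
        by_contra hcon
        exact h7 (hf y) ((IsLocalRing.mem_maximalIdeal _).mpr hcon)
      obtain ⟨u, hu⟩ := h8
      have h9 : ((u⁻¹ : G.Oˣ) : G.O).1 * f y = 1 := by
        have := congrArg (fun z : G.O => (z : F)) (Units.inv_mul u)
        rw [hu] at this
        exact this
      rw [← eq_inv_of_mul_eq_one_left h9]
      exact ((u⁻¹ : G.Oˣ) : G.O).2
    have hq : f x * (f y)⁻¹ ∈ G.O := G.O.mul_mem _ _ (hf x) hyinv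
    have hρq : G.ρ ⟨f x * (f y)⁻¹, hq⟩ * G.ρ ⟨f y, hf y⟩ = G.ρ ⟨f x, hf x⟩ := by
      rw [← map_mul]
      exact congrArg G.ρ (Subtype.ext (inv_mul_cancel_right₀ hfy0 _))
    have hρq0 : G.ρ ⟨f x * (f y)⁻¹, hq⟩ ≠ 0 := by
      intro h
      rw [h, zero_mul] at hρq
      exact h2 x hρq.symm
    obtain ⟨c, hc0, hc⟩ := S18aux.exists_const_mul (K := k) (F := F') hρq0
      (pow_ne_zero r hg0) (fun w => by
        have e1 : w.ord (G.ρ ⟨f x, hf x⟩) =
            w.ord (G.ρ ⟨f x * (f y)⁻¹, hq⟩) + w.ord (G.ρ ⟨f y, hf y⟩) := by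
          rw [← w.ord_mul hρq0 (h2 y), hρq]
        rw [h4 x w, h4 y w] at e1
        have e2 : w.ord (g ^ r) = r * w.ord g := FF.ord_pow w g r
        rw [e2, ← hg w]
        change _ = (r : ℤ) * ((D' x : Divisor k F') w - (D' y : Divisor k F') w)
        linarith)
    obtain ⟨c', hc'⟩ := IsAlgClosed.exists_pow_nat_eq c hr.pos
    have hc'0 : c' ≠ 0 := by
      rintro rfl
      rw [zero_pow hr.ne_zero] at hc'
      exact hc0 hc'.symm
    have h10 := TK r ((D x : Divisor K F) - D y) (f x * (f y)⁻¹) hq (algebraMap k F' c' * g) hrk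
      (fun v => by
        rw [v.ord_mul hfx0 (inv_ne_zero hfy0), v.ord_inv, h3 x v, h3 y v, Finsupp.sub_apply]
        ring) (mul_ne_zero ((map_ne_zero _).mpr hc'0) hg0) (by
        rw [hc, mul_pow, ← map_pow, hc'])
    have h11 : Pic0.mk (D x - D y) = 0 :=
      (QuotientAddGroup.eq_zero_iff _).mpr (AddSubgroup.mem_addSubgroupOf.mpr h10)
    have h12 : Pic0.mk (D x) = Pic0.mk (D y) := by
      have : Pic0.mk (D x - D y) = Pic0.mk (D x) - Pic0.mk (D y) := rfl
      rw [this] at h11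
      exact sub_eq_zero.mp h11
    rw [h1 x, h1 y] at h12
    exact Subtype.ext h12
  haveI := S27.finite_pic0_torsion k F' r hrk
  have hcard := Nat.card_le_card_of_injective Θ hinj
  rw [(S27.pic0_torsion_divisible K F r hrK).1, (S27.pic0_torsion_divisible k F' r hrk).1] at hcard
  have := (Nat.pow_le_pow_iff_right hr.one_lt).mp hcard
  omega

end Abstract

open S18aux (DegThm DegEq bar_eq modG)

section Concrete

variable {ℓ : ℕ} {A : ValuationSubring X0Emb.KK} (hℓ : ℓ.Prime) (hA : A.LiesOverPrime ℓ)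

include hℓ hA in
theorem degThm_res {N : ℕ} (hN : N ≠ 0) (hℓN : ¬ ℓ ∣ N) :
    DegThm (IsLocalRing.ResidueField A) N := by
  haveI : NeZero N := ⟨hN⟩
  exact Igusa.finrank_full _ N (S18aux.natCast_ne_zero hℓ hA hℓN)

include hℓ hA in
theorem degEq_all {N : ℕ} (hN : N ≠ 0) (hℓN : ¬ ℓ ∣ N) : DegEq A N := by
  haveI : NeZero N := ⟨hN⟩
  exact DegEq.of_degThm hN (degThm_KK N) (degThm_res hℓ hA hN hℓN)

include hℓ hA in
/-- **The genus inequality at every level prime to the residue characteristic.** -/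
theorem genus_le_all (m : ℕ) [NeZero m] (hm : ¬ ℓ ∣ m) :
    genusFF X0Emb.KK (modularFunctionFieldBar m) ≤
      genusFF (IsLocalRing.ResidueField A)
        (modularFunctionFieldFullC (IsLocalRing.ResidueField A) m) := by
  have hm0 : m ≠ 0 := NeZero.ne m
  have hN0 := auxLevel_ne_zero (ℓ := ℓ) hm0
  have hd := dvd_auxLevel ℓ m
  have hnd := not_dvd_auxLevel hℓ hm
  have h := degEq_all hℓ hA hm0 hm
  have h' := degEq_all hℓ hA hN0 hnd
  have h2 := genus_le_aux hℓ hA m hm fun M hM hMk => by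
    haveI : NeZero M := ⟨hM⟩
    exact Igusa.finrank_full _ M hMk
  haveI := h.isFF
  haveI := h.isFF'
  haveI := h'.isFF
  haveI := h'.isFF'
  obtain ⟨R, -⟩ := (modG hℓ hA h').exists_redMap_of_le h2
  have hmem : ∀ x : modularFunctionFieldBar m,
      IntermediateField.inclusion (S18aux.bar_le hm0 hN0 hd) x ∈ (modG hℓ hA h').O ↔
        x ∈ (modG hℓ hA h).O := by
    intro x
    rw [S18aux.mem_modG_O, S18aux.mem_modG_O, IntermediateField.coe_inclusion]
  obtain ⟨r, hr1, hr⟩ := Nat.exists_infinite_primes (ℓ + 1 + finrankAlong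
    (IsLocalRing.ResidueField A) (IntermediateField.inclusion
      (S18aux.full_le (IsLocalRing.ResidueField A) hm0 hN0 hd)))
  refine genusFF_le_of_cover (G := modG hℓ hA h) R
    (IntermediateField.inclusion (S18aux.bar_le hm0 hN0 hd))
    (IntermediateField.inclusion (S18aux.full_le _ hm0 hN0 hd)) (fun x hx => (hmem x).mpr hx)
    (fun x hx => ?_) (S18aux.torsKummer_of_genus hℓ hA hN0 hd h h' h2) hr (by omega)
    (by exact_mod_cast hr.ne_zero) (S18aux.natCast_ne_zero hℓ hA fun hdvd => by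
      have := (Nat.prime_dvd_prime_iff_eq hℓ hr).mp hdvd
      omega)
  have hx' : (x : LaurentSeries X0Emb.KK) ∈ gaussSubring A := (S18aux.mem_modG_O hℓ hA).mp hx
  apply Subtype.ext
  rw [IntermediateField.coe_inclusion, S18aux.coe_modG_ρ' hℓ hA hx hx' rfl]
  exact S18aux.coe_modG_ρ' hℓ hA ((hmem x).2 hx) hx' (IntermediateField.coe_inclusion _ _)

end Concrete

end Fermat.Agent.GoodRed

end
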