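import Fermat.Agent.Deuring.Data
import Mathlib.FieldTheory.IntermediateField.Adjoin.Algebra
import Mathlib.RingTheory.Localization.Module

/-!
# Reduction of embeddings

`G : GaussData K F k F'`, `y ∈ O` with transcendental reduction and
`[F : K(y)] = [F' : k(ρ y)]`.  Then `O` is integral over
`R_y = {p(y)/q(y) | p, q ∈ A[X], q̄ ≠ 0}`, hence every embedding `Ψ : F → L` reduces to
an embedding `F' → L'`.
-/

set_option autoImplicit false

open Module Polynomial
open scoped IntermediateField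
open Fermat.Agent.Deuring

noncomputable section

namespace Fermat.Agent.GoodRed

variable {K F k F' : Type*} [Field K] [Field F] [Algebra K F] [Field k] [Field F'] [Algebra k F']
  (G : GaussData K F k F')

/-- evaluation at `y` of polynomials with coefficients in `A`. -/
def ev (y : F) : G.A[X] →+* F := eval₂RingHom ((algebraMap K F).comp G.A.subtype) y

theorem ev_eq (y : F) (p : G.A[X]) : ev G y p = aeval y (p.map G.A.subtype) := by
  rw [ev, coe_eval₂RingHom, aeval_def, eval₂_map]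

/-- evaluation at `y ∈ O` of polynomials with coefficients in `A`, as a map to `O`. -/
def evO {y : F} (hy : y ∈ G.O) : G.A[X] →+* G.O :=
  eval₂RingHom (((algebraMap K F).comp G.A.subtype).codRestrict G.O
    (fun a => (G.mem_O_iff _).mpr a.2)) ⟨y, hy⟩

theorem evO_coe {y : F} (hy : y ∈ G.O) (p : G.A[X]) : (evO G hy p : F) = ev G y p := by
  rw [evO, ev, coe_eval₂RingHom, coe_eval₂RingHom]
  have := hom_eval₂ p (((algebraMap K F).comp G.A.subtype).codRestrict G.O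
    (fun a => (G.mem_O_iff _).mpr a.2)) G.O.subtype ⟨y, hy⟩
  exact this

theorem ev_mem {y : F} (hy : y ∈ G.O) (p : G.A[X]) : ev G y p ∈ G.O := by
  rw [← evO_coe G hy]; exact (evO G hy p).2

theorem ρ_evO {y : F} (hy : y ∈ G.O) (p : G.A[X]) :
    G.ρ (evO G hy p) = aeval (G.ρ ⟨y, hy⟩) (p.map G.res) := by
  rw [evO, coe_eval₂RingHom, aeval_def, eval₂_map, hom_eval₂]
  congr 1
  ext a
  exact G.ρ_algebraMap a

theorem ρ_ev {y : F} (hy : y ∈ G.O) (p : G.A[X]) (h : ev G y p ∈ G.O) :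
    G.ρ ⟨ev G y p, h⟩ = aeval (G.ρ ⟨y, hy⟩) (p.map G.res) := by
  rw [← ρ_evO G hy]
  congr 1
  exact Subtype.ext (evO_coe G hy p).symm

/-- scaling a finite family of constants. -/
theorem exists_scale_family {ι : Type*} [Finite ι] (a : ι → K) (ha : ∃ i, a i ≠ 0) :
    ∃ c : K, c ≠ 0 ∧ (∀ i, c * a i ∈ G.A) ∧ ∃ i, c * a i = 1 := by
  classical
  obtain ⟨i0, hi0⟩ := ha
  have : Nonempty ι := ⟨i0⟩
  obtain ⟨j, hj⟩ := Finite.exists_max (fun i => G.A.valuation (a i))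
  have hj0 : a j ≠ 0 := by
    intro h
    have := hj i0
    rw [h, map_zero, le_zero_iff, map_eq_zero] at this
    exact hi0 this
  refine ⟨(a j)⁻¹, inv_ne_zero hj0, fun i => ?_, j, inv_mul_cancel₀ hj0⟩
  rw [← ValuationSubring.valuation_le_one_iff, map_mul, map_inv₀]
  have h2 : G.A.valuation (a j) ≠ 0 := (Valuation.ne_zero_iff _).mpr hj0
  calc (G.A.valuation (a j))⁻¹ * G.A.valuation (a i)
      ≤ (G.A.valuation (a j))⁻¹ * G.A.valuation (a j) := mul_le_mul_right (hj i) _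
    _ = 1 := inv_mul_cancel₀ h2

/-- scaling a finite family of polynomials. -/
theorem exists_scale_poly {ι : Type*} [Finite ι] (p : ι → K[X]) (hp : ∃ i, p i ≠ 0) :
    ∃ (c : K) (P : ι → G.A[X]), c ≠ 0 ∧ (∀ i, (P i).map G.A.subtype = C c * p i) ∧
      ∃ i, (P i).map G.res ≠ 0 := by
  classical
  have := Fintype.ofFinite ι
  set N : ℕ := ∑ i, (p i).natDegree + 1 with hN
  have hdeg : ∀ i, (p i).natDegree < N := by
    intro i
    have : (p i).natDegree ≤ ∑ i, (p i).natDegree :=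
      Finset.single_le_sum (f := fun i => (p i).natDegree) (fun i _ => Nat.zero_le _)
        (Finset.mem_univ i)
    omega
  obtain ⟨i0, hi0⟩ := hp
  obtain ⟨c, hc, hmem, ⟨i1, m1⟩, h1⟩ := exists_scale_family G
    (fun x : ι × Fin N => (p x.1).coeff x.2)
    ⟨(i0, ⟨(p i0).natDegree, hdeg i0⟩), by simpa using hi0⟩
  have hcoeff : ∀ i m, c * (p i).coeff m ∈ G.A := by
    intro i m
    by_cases hm : m < N
    · exact hmem (i, ⟨m, hm⟩)
    · rw [coeff_eq_zero_of_natDegree_lt (by have := hdeg i; omega), mul_zero]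
      exact G.A.zero_mem
  have hlift : ∀ i, ∃ P : G.A[X], P.map G.A.subtype = C c * p i := by
    intro i
    have : C c * p i ∈ Polynomial.lifts G.A.subtype := by
      rw [Polynomial.lifts_iff_coeff_lifts]
      intro m
      rw [coeff_C_mul]
      exact ⟨⟨_, hcoeff i m⟩, rfl⟩
    exact (Polynomial.mem_lifts _).mp this
  choose P hP using hlift
  refine ⟨c, P, hc, hP, i1, fun h0 => ?_⟩
  have h2 : ((P i1).coeff m1 : K) = c * (p i1).coeff m1 := by
    have := congrArg (fun q => q.coeff (m1 : ℕ)) (hP i1)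
    simp only [coeff_map, coeff_C_mul] at this
    exact this
  have h3 : (P i1).coeff m1 = 1 := by
    apply Subtype.ext
    rw [h2]
    exact h1
  have h4 := congrArg (fun q => q.coeff (m1 : ℕ)) h0
  simp only [coeff_map, coeff_zero] at h4
  rw [h3, map_one] at h4
  exact one_ne_zero h4

section Adj

variable {K F : Type*} [Field K] [Field F] [Algebra K F]

/-- polynomials in `y` as elements of `K⟮y⟯`. -/
def adj (K : Type*) {F : Type*} [Field K] [Field F] [Algebra K F] (y : F) (p : K[X]) : K⟮y⟯ :=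
  aeval (IntermediateField.AdjoinSimple.gen K y) p

theorem coe_adj (y : F) (p : K[X]) : (adj K y p : F) = aeval y p := by
  rw [adj, ← IntermediateField.aeval_coe, IntermediateField.AdjoinSimple.coe_gen]

open scoped IntermediateField.algebraAdjoinAdjoin in
theorem exists_common_denom (y : F) {ι : Type*} [Finite ι] (a : ι → K⟮y⟯) :
    ∃ (q : K[X]) (p : ι → K[X]), aeval y q ≠ 0 ∧ ∀ i, aeval y q * (a i : F) = aeval y (p i) := by
  obtain ⟨b, hb⟩ := IsLocalization.exist_integer_multiples_of_finite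
    (nonZeroDivisors (Algebra.adjoin K {y})) a
  have hmem : ∀ z : Algebra.adjoin K {y}, ∃ p : K[X], (z : F) = aeval y p := by
    rintro ⟨z, hz⟩
    rw [Algebra.adjoin_singleton_eq_range_aeval] at hz
    obtain ⟨p, rfl⟩ := hz
    exact ⟨p, rfl⟩
  obtain ⟨q, hq⟩ := hmem b
  choose z hz using hb
  choose p hp using fun i => hmem (z i)
  refine ⟨q, p, ?_, fun i => ?_⟩
  · rw [← hq]
    simp
  · rw [← hq, ← hp]
    have := congrArg (fun w : K⟮y⟯ => (w : F)) (hz i)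
    rw [Algebra.smul_def] at this
    exact this.symm

end Adj

section Basis

variable {y : F} (hyO : y ∈ G.O) (hytr : Transcendental k (G.ρ ⟨y, hyO⟩))

include hytr in
theorem ev_ne_zero_of {q : G.A[X]} (hq : q.map G.res ≠ 0) :
    G.ρ ⟨ev G y q, ev_mem G hyO q⟩ ≠ 0 := by
  rw [ρ_ev G hyO]
  intro h
  exact hq ((transcendental_iff.mp hytr) _ h)

theorem sum_mem {ι : Type*} [Fintype ι] {e : ι → F} (he : ∀ i, e i ∈ G.O) {y : F} (hyO : y ∈ G.O)
    (P : ι → G.A[X]) : ∑ i, ev G y (P i) * e i ∈ G.O :=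
  _root_.sum_mem fun i _ => G.O.mul_mem _ _ (ev_mem G hyO _) (he i)

include hytr in
theorem map_res_eq_zero {ι : Type*} [Fintype ι] {e : ι → F} (he : ∀ i, e i ∈ G.O)
    (hli : LinearIndependent k⟮G.ρ ⟨y, hyO⟩⟯ (fun i => G.ρ ⟨e i, he i⟩))
    (P : ι → G.A[X]) (h : ∑ i, ev G y (P i) * e i ∈ G.O)
    (h0 : G.ρ ⟨∑ i, ev G y (P i) * e i, h⟩ = 0) (i : ι) : (P i).map G.res = 0 := by
  have h1 : ∑ i, adj k (G.ρ ⟨y, hyO⟩) ((P i).map G.res) • G.ρ ⟨e i, he i⟩ = 0 := by
    rw [← h0, G.ρ_sum Finset.univ (fun i => ev G y (P i) * e i)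
      (fun i => G.O.mul_mem _ _ (ev_mem G hyO _) (he i))]
    refine Finset.sum_congr rfl fun i _ => ?_
    rw [G.ρ_mul (ev_mem G hyO _) (he i), ρ_ev G hyO, Algebra.smul_def]
    congr 1
    exact coe_adj _ _
  have h2 := Fintype.linearIndependent_iff.mp hli _ h1 i
  have h3 : aeval (G.ρ ⟨y, hyO⟩) ((P i).map G.res) = 0 := by
    rw [← coe_adj, h2]; rfl
  exact (transcendental_iff.mp hytr) _ h3

include hytr in
theorem aeval_eq_zero_of_sum {ι : Type*} [Fintype ι] {e : ι → F} (he : ∀ i, e i ∈ G.O)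
    (hli : LinearIndependent k⟮G.ρ ⟨y, hyO⟩⟯ (fun i => G.ρ ⟨e i, he i⟩))
    (p : ι → K[X]) (h0 : ∑ i, aeval y (p i) * e i = 0) (i : ι) : p i = 0 := by
  by_contra hi
  obtain ⟨c, P, hc, hP, j, hj⟩ := exists_scale_poly G p ⟨i, hi⟩
  apply hj
  have h1 : ∑ i, ev G y (P i) * e i = 0 := by
    have : ∀ i, ev G y (P i) * e i = algebraMap K F c * (aeval y (p i) * e i) := by
      intro i
      rw [ev_eq, hP, map_mul, aeval_C]
      ring
    rw [Finset.sum_congr rfl fun i _ => this i, ← Finset.mul_sum, h0, mul_zero]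
  refine map_res_eq_zero G hyO hytr he hli P (sum_mem G he hyO P) ?_ j
  have : (⟨∑ i, ev G y (P i) * e i, sum_mem G he hyO P⟩ : G.O) = 0 := Subtype.ext h1
  rw [this, map_zero]

include hytr in
theorem linearIndependent_lift {ι : Type*} [Fintype ι] {e : ι → F} (he : ∀ i, e i ∈ G.O)
    (hli : LinearIndependent k⟮G.ρ ⟨y, hyO⟩⟯ (fun i => G.ρ ⟨e i, he i⟩)) :
    LinearIndependent K⟮y⟯ e := by
  rw [Fintype.linearIndependent_iff]
  intro a ha i
  obtain ⟨q, p, hq, hp⟩ := exists_common_denom y a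
  have h1 : ∑ i, aeval y (p i) * e i = 0 := by
    have : ∀ i, aeval y (p i) * e i = aeval y q * (a i • e i) := by
      intro i
      rw [← hp, Algebra.smul_def, mul_assoc]
      rfl
    rw [Finset.sum_congr rfl fun i _ => this i, ← Finset.mul_sum, ha, mul_zero]
  have h2 := aeval_eq_zero_of_sum G hyO hytr he hli p h1 i
  have h3 := hp i
  rw [h2, map_zero] at h3
  have := (mul_eq_zero.mp h3).resolve_left hq
  exact Subtype.ext this

include hytr in
/-- `[F' : k(ρ y)] ≤ [F : K(y)]`. -/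
theorem finite_and_finrank_le [FiniteDimensional K⟮y⟯ F] :
    FiniteDimensional k⟮G.ρ ⟨y, hyO⟩⟯ F' ∧ finrank k⟮G.ρ ⟨y, hyO⟩⟯ F' ≤ finrank K⟮y⟯ F := by
  classical
  have h1 : Module.rank k⟮G.ρ ⟨y, hyO⟩⟯ F' ≤ (finrank K⟮y⟯ F : ℕ) := by
    refine rank_le fun s hs => ?_
    choose x hx using fun i : s => G.ρ_surj (i : F')
    have he : ∀ i, ((x i : G.O) : F) ∈ G.O := fun i => (x i).2
    have hli : LinearIndependent k⟮G.ρ ⟨y, hyO⟩⟯ (fun i : s => G.ρ ⟨((x i : G.O) : F), he i⟩) := by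
      have : (fun i : s => G.ρ ⟨((x i : G.O) : F), he i⟩) = fun i : s => (i : F') := by
        funext i
        exact hx i
      rw [this]
      exact hs
    have h2 := (linearIndependent_lift G hyO hytr he hli).fintype_card_le_finrank
    rwa [Fintype.card_coe] at h2
  have h2 : Module.Finite k⟮G.ρ ⟨y, hyO⟩⟯ F' :=
    Module.rank_lt_aleph0_iff.mp (h1.trans_lt (Cardinal.nat_lt_aleph0 _))
  refine ⟨h2, ?_⟩
  rw [← Module.finrank_eq_rank] at h1
  exact_mod_cast h1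

/-- the ring `{p(y)/q(y) : q̄ ≠ 0}`. -/
def Ry (y : F) : Subring F where
  carrier := {a | ∃ p q : G.A[X], q.map G.res ≠ 0 ∧ ev G y q * a = ev G y p}
  zero_mem' := ⟨0, 1, by simp, by simp⟩
  one_mem' := ⟨1, 1, by simp, by simp⟩
  add_mem' := by
    rintro a b ⟨p, q, hq, h⟩ ⟨p', q', hq', h'⟩
    refine ⟨p * q' + q * p', q * q', ?_, ?_⟩
    · rw [Polynomial.map_mul]; exact mul_ne_zero hq hq'
    · rw [map_mul, map_add, map_mul, map_mul, ← h, ← h']; ring
  mul_mem' := by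
    rintro a b ⟨p, q, hq, h⟩ ⟨p', q', hq', h'⟩
    refine ⟨p * p', q * q', ?_, ?_⟩
    · rw [Polynomial.map_mul]; exact mul_ne_zero hq hq'
    · rw [map_mul, map_mul, ← h, ← h']; ring
  neg_mem' := by
    rintro a ⟨p, q, hq, h⟩
    exact ⟨-p, q, hq, by rw [map_neg, ← h]; ring⟩

theorem mem_Ry {y a : F} : a ∈ Ry G y ↔
    ∃ p q : G.A[X], q.map G.res ≠ 0 ∧ ev G y q * a = ev G y p := Iff.rfl

include hyO hytr in
theorem Ry_le : ∀ a ∈ Ry G y, a ∈ G.O := by
  rintro a ⟨p, q, hq, h⟩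
  have h1 := ev_ne_zero_of G hyO hytr hq
  have hu : IsUnit (⟨ev G y q, ev_mem G hyO q⟩ : G.O) := by
    by_contra hcon
    apply h1
    rw [G.ρ_eq_zero_iff]
    exact ValuationSubring.coe_mem_nonunits_iff.mpr hcon
  obtain ⟨u, hu⟩ := isUnit_iff_exists_inv.mp hu
  have hu' : ev G y q * (u : F) = 1 := congrArg Subtype.val hu
  have h2 : a = ev G y p * u := by
    rw [← h]
    calc a = (ev G y q * (u : F)) * a := by rw [hu', one_mul]
      _ = _ := by ring
  rw [h2]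
  exact G.O.mul_mem _ _ (ev_mem G hyO p) u.2

end Basis

section Integral

variable {y : F} (hyO : y ∈ G.O) (hytr : Transcendental k (G.ρ ⟨y, hyO⟩))

/-- `O` as an algebra over `R_y`. -/
def OAlg : Subalgebra (Ry G y) F where
  carrier := {f | f ∈ G.O}
  mul_mem' := fun {a b} ha hb => G.O.mul_mem a b ha hb
  add_mem' := fun {a b} ha hb => G.O.add_mem a b ha hb
  algebraMap_mem' := fun a => Ry_le G hyO hytr a a.2

include hytr in
/-- **Integrality**: if `[F : K(y)] = [F' : k(ρ y)]` then `O` is integral over `R_y`. -/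
theorem isIntegral_of_mem [FiniteDimensional k⟮G.ρ ⟨y, hyO⟩⟯ F']
    (hdeg : finrank K⟮y⟯ F = finrank k⟮G.ρ ⟨y, hyO⟩⟯ F') {f : F} (hf : f ∈ G.O) :
    IsIntegral (Ry G y) f := by
  classical
  -- lifts of a basis
  let B := Module.finBasis k⟮G.ρ ⟨y, hyO⟩⟯ F'
  have hlift : ∀ i, ∃ x : G.O, G.ρ x = B i := fun i => G.ρ_surj _
  choose x hx using hlift
  let e : Fin (finrank k⟮G.ρ ⟨y, hyO⟩⟯ F') → F := fun i => x i
  have he : ∀ i, e i ∈ G.O := fun i => (x i).2
  have hρe : (fun i => G.ρ ⟨e i, he i⟩) = B := by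
    funext i
    exact hx i
  have hli : LinearIndependent k⟮G.ρ ⟨y, hyO⟩⟯ (fun i => G.ρ ⟨e i, he i⟩) := by
    rw [hρe]; exact B.linearIndependent
  have hliK := linearIndependent_lift G hyO hytr he hli
  have hpos : 0 < finrank k⟮G.ρ ⟨y, hyO⟩⟯ F' := finrank_pos
  have : Nonempty (Fin (finrank k⟮G.ρ ⟨y, hyO⟩⟯ F')) := ⟨⟨0, hpos⟩⟩
  have hspan := hliK.span_eq_top_of_card_eq_finrank (by rw [Fintype.card_fin, hdeg])
  let BK := Basis.mk hliK hspan.ge
  have key : ∀ g ∈ G.O, g ∈ Submodule.span (Ry G y) (Set.range e) := by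
    intro g hg
    have h1 : g = ∑ i, BK.repr g i • e i := by
      conv_lhs => rw [← BK.sum_repr g]
      refine Finset.sum_congr rfl fun i _ => ?_
      rw [Basis.mk_apply]
    obtain ⟨q, p, hq, hp⟩ := exists_common_denom y (fun i => BK.repr g i)
    -- scale
    let P0 : Option (Fin (finrank k⟮G.ρ ⟨y, hyO⟩⟯ F')) → K[X] := fun o => o.elim q p
    have hq0 : q ≠ 0 := by rintro rfl; exact hq (map_zero _)
    obtain ⟨c, P, hc, hP, j, hj⟩ := exists_scale_poly G P0 ⟨none, hq0⟩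
    have hPn : (P none).map G.A.subtype = C c * q := hP none
    have hPs : ∀ i, (P (some i)).map G.A.subtype = C c * p i := fun i => hP (some i)
    have hmul : ∀ i, ev G y (P none) * (BK.repr g i : F) = ev G y (P (some i)) := by
      intro i
      rw [ev_eq, ev_eq, hPn, hPs, map_mul, map_mul, mul_assoc, hp]
    have hsum : ev G y (P none) * g = ∑ i, ev G y (P (some i)) * e i := by
      conv_lhs => rw [h1]
      rw [Finset.mul_sum]
      refine Finset.sum_congr rfl fun i _ => ?_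
      rw [← hmul, mul_assoc, Algebra.smul_def]
      rfl
    have hPnone : (P none).map G.res ≠ 0 := by
      intro h0
      have hall : ∀ i, (P (some i)).map G.res = 0 := by
        refine map_res_eq_zero G hyO hytr he hli (fun i => P (some i)) (sum_mem G he hyO _) ?_
        have h3 : (⟨∑ i, ev G y (P (some i)) * e i, sum_mem G he hyO _⟩ : G.O) =
            ⟨ev G y (P none) * g, G.O.mul_mem _ _ (ev_mem G hyO _) hg⟩ := Subtype.ext hsum.symm
        rw [h3, G.ρ_mul (ev_mem G hyO _) hg, ρ_ev G hyO, h0, map_zero, zero_mul]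
      rcases j with _ | j
      · exact hj h0
      · exact hj (hall j)
    have hmem : ∀ i, (BK.repr g i : F) ∈ Ry G y := fun i => ⟨P (some i), P none, hPnone, hmul i⟩
    rw [h1]
    refine Submodule.sum_mem _ fun i _ => ?_
    have h4 : BK.repr g i • e i = (⟨_, hmem i⟩ : Ry G y) • e i := rfl
    rw [h4]
    exact Submodule.smul_mem _ _ (Submodule.subset_span ⟨i, rfl⟩)
  refine IsIntegral.of_mem_of_fg (OAlg G hyO hytr) ?_ f hf
  refine ⟨Finset.univ.image e, ?_⟩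
  rw [Finset.coe_image, Finset.coe_univ, Set.image_univ]
  apply le_antisymm
  · rw [Submodule.span_le]
    rintro _ ⟨i, rfl⟩
    exact he i
  · intro g hg
    exact key g hg

end Integral

section Reduce

variable {L L' : Type*} [Field L] [Field L'] (OL : Subring L) (ρL : OL →+* L')

/-- `z` is integral, with reduction `w`. -/
def Red (z : L) (w : L') : Prop := ∃ h : z ∈ OL, ρL ⟨z, h⟩ = w

variable {OL ρL}

theorem Red.add {z z' : L} {w w' : L'} (h : Red OL ρL z w) (h' : Red OL ρL z' w') :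
    Red OL ρL (z + z') (w + w') := by
  obtain ⟨h1, rfl⟩ := h
  obtain ⟨h2, rfl⟩ := h'
  exact ⟨OL.add_mem h1 h2, by rw [← map_add]; rfl⟩

theorem Red.mul {z z' : L} {w w' : L'} (h : Red OL ρL z w) (h' : Red OL ρL z' w') :
    Red OL ρL (z * z') (w * w') := by
  obtain ⟨h1, rfl⟩ := h
  obtain ⟨h2, rfl⟩ := h'
  exact ⟨OL.mul_mem h1 h2, by rw [← map_mul]; rfl⟩

theorem Red.pow {z : L} {w : L'} (h : Red OL ρL z w) (n : ℕ) : Red OL ρL (z ^ n) (w ^ n) := by
  obtain ⟨h1, rfl⟩ := h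
  exact ⟨OL.pow_mem h1 n, by rw [← map_pow]; rfl⟩

theorem Red.unique {z : L} {w w' : L'} (h : Red OL ρL z w) (h' : Red OL ρL z w') : w = w' := by
  obtain ⟨h1, rfl⟩ := h
  obtain ⟨h2, rfl⟩ := h'
  rfl

theorem Red.one : Red OL ρL 1 1 := ⟨OL.one_mem, map_one ρL⟩

theorem Red.zero : Red OL ρL 0 0 := ⟨OL.zero_mem, map_zero ρL⟩

variable {y : F} (hyO : y ∈ G.O) (hytr : Transcendental k (G.ρ ⟨y, hyO⟩))
  (τ : k →+* L') (Ψ : F →+* L) {yL : L'}
  (hA : ∀ a : G.A, Red OL ρL (Ψ (algebraMap K F a)) (τ (G.res a)))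
  (hy : Red OL ρL (Ψ y) yL) (hyL : ∀ q : k[X], q ≠ 0 → q.eval₂ τ yL ≠ 0)
  (hcont : ∀ f : F, Ψ f ∈ OL ∨ Red OL ρL (Ψ f)⁻¹ 0)

include hA hy in
theorem red_ev (p : G.A[X]) : Red OL ρL (Ψ (ev G y p)) ((p.map G.res).eval₂ τ yL) := by
  induction p using Polynomial.induction_on' with
  | add p q hp hq =>
    rw [map_add, map_add, Polynomial.map_add, eval₂_add]
    exact hp.add hq
  | monomial n a =>
    rw [ev, coe_eval₂RingHom, eval₂_monomial, map_mul, map_pow, Polynomial.map_monomial,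
      eval₂_monomial]
    exact (hA a).mul (hy.pow n)

include hA hy hyL hcont in
theorem map_Ry_mem {a : F} (ha : a ∈ Ry G y) : Ψ a ∈ OL := by
  obtain ⟨p, q, hq, h⟩ := ha
  rcases hcont a with h1 | h1
  · exact h1
  rcases eq_or_ne (Ψ a) 0 with h0 | h0
  · rw [h0]; exact OL.zero_mem
  exfalso
  have h3 : Ψ (ev G y q) = Ψ (ev G y p) * (Ψ a)⁻¹ := by
    rw [← h, map_mul, mul_assoc, mul_inv_cancel₀ h0, mul_one]
  have h4 := (red_ev G τ Ψ hA hy p).mul h1
  rw [← h3, mul_zero] at h4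
  exact hyL _ hq ((red_ev G τ Ψ hA hy q).unique h4)

include hytr hA hy hyL hcont in
theorem map_mem [FiniteDimensional k⟮G.ρ ⟨y, hyO⟩⟯ F']
    (hdeg : finrank K⟮y⟯ F = finrank k⟮G.ρ ⟨y, hyO⟩⟯ F') {f : F} (hf : f ∈ G.O) : Ψ f ∈ OL := by
  rcases hcont f with h1 | ⟨h1, h1'⟩
  · exact h1
  rcases eq_or_ne (Ψ f) 0 with h0 | h0
  · rw [h0]; exact OL.zero_mem
  exfalso
  obtain ⟨P, hP, hPf⟩ := isIntegral_of_mem G hyO hytr hdeg hf
  -- the ring hom `R_y → OL`
  let i : Ry G y →+* OL := (Ψ.comp (Ry G y).subtype).codRestrict OL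
    (fun a => map_Ry_mem G τ Ψ hA hy hyL hcont a.2)
  have h2 : P.eval₂ (OL.subtype.comp i) (Ψ f) = 0 := by
    have := congrArg Ψ hPf
    rw [map_zero, hom_eval₂] at this
    exact this
  have : Invertible (Ψ f) := invertibleOfNonzero h0
  have h3 := (eval₂_reverse_eq_zero_iff (OL.subtype.comp i) (Ψ f) P).mpr h2
  rw [invOf_eq_inv] at h3
  have h4 : P.reverse.eval₂ i ⟨(Ψ f)⁻¹, h1⟩ = 0 := by
    apply Subtype.ext
    have := hom_eval₂ P.reverse i OL.subtype ⟨(Ψ f)⁻¹, h1⟩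
    rw [show OL.subtype ⟨(Ψ f)⁻¹, h1⟩ = (Ψ f)⁻¹ from rfl, h3] at this
    exact this
  have h5 := congrArg ρL h4
  rw [map_zero, hom_eval₂, h1', eval₂_at_zero, coeff_zero_reverse, hP.leadingCoeff, map_one] at h5
  exact one_ne_zero h5

theorem red_zero_of {f : F} (hf : f ∈ G.O) (h0 : G.ρ ⟨f, hf⟩ = 0)
    (hA : ∀ a : G.A, Red OL ρL (Ψ (algebraMap K F a)) (τ (G.res a)))
    (hmem : ∀ f ∈ G.O, Ψ f ∈ OL) : Red OL ρL (Ψ f) 0 := by
  rcases eq_or_ne f 0 with rfl | hf0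
  · rw [map_zero]; exact Red.zero
  obtain ⟨c, hc, hcf, hne⟩ := G.exists_scale hf0
  have hcA : c ∉ G.A := by
    intro hcA
    apply hne
    rw [G.ρ_smul hcA hf, h0, smul_zero]
  have hinvA : c⁻¹ ∈ G.A := (G.A.mem_or_inv_mem c).resolve_left hcA
  have hnon : c⁻¹ ∈ G.A.nonunits := by
    rw [ValuationSubring.mem_nonunits_iff, map_inv₀]
    have h2 : 1 < G.A.valuation c := by
      rw [← not_le, ValuationSubring.valuation_le_one_iff]
      exact hcA
    exact inv_lt_one_of_one_lt₀ h2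
  have h3 := hA ⟨c⁻¹, hinvA⟩
  rw [(G.res_eq_zero_iff _).mpr hnon, map_zero] at h3
  have h4 : Ψ f = Ψ (algebraMap K F (c⁻¹ : K)) * Ψ (c • f) := by
    rw [← map_mul, Algebra.smul_def, ← mul_assoc, ← map_mul, inv_mul_cancel₀ hc, map_one, one_mul]
  have h5 : Red OL ρL (Ψ (c • f)) (ρL ⟨Ψ (c • f), hmem _ hcf⟩) := ⟨_, rfl⟩
  have h6 := Red.mul h3 h5
  rw [zero_mul] at h6
  rw [h4]
  exact h6

include hytr hA hy hyL hcont in
/-- **Reduction of embeddings.** -/
theorem exists_reduction [FiniteDimensional k⟮G.ρ ⟨y, hyO⟩⟯ F']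
    (hdeg : finrank K⟮y⟯ F = finrank k⟮G.ρ ⟨y, hyO⟩⟯ F') :
    ∃ Ψ' : F' →+* L', ∀ (f : F) (hf : f ∈ G.O), Red OL ρL (Ψ f) (Ψ' (G.ρ ⟨f, hf⟩)) := by
  have hmem : ∀ f ∈ G.O, Ψ f ∈ OL := fun f hf =>
    map_mem G hyO hytr τ Ψ hA hy hyL hcont hdeg hf
  let Φ : G.O →+* L' := ρL.comp ((Ψ.comp G.O.subtype).codRestrict OL (fun f => hmem f f.2))
  have hΦ : ∀ f : G.O, Φ f = ρL ⟨Ψ f, hmem f f.2⟩ := fun f => rfl
  have hker : ∀ f : G.O, G.ρ f = 0 → Φ f = 0 := by
    intro f hf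
    obtain ⟨h1, h2⟩ := red_zero_of G τ Ψ f.2 hf hA hmem
    rw [hΦ, h2]
  refine ⟨(RingHom.liftOfSurjective G.ρ G.ρ_surj ⟨Φ, ?_⟩), ?_⟩
  · intro f hf
    exact hker f hf
  · intro f hf
    refine ⟨hmem f hf, ?_⟩
    exact (RingHom.liftOfRightInverse_comp_apply G.ρ _
      (Function.rightInverse_surjInv G.ρ_surj) ⟨Φ, _⟩ ⟨f, hf⟩).symm

include hA hy hyL hcont in
/-- **Reduction of embeddings**, with a name for the reduction of `y`. -/
theorem exists_reduction' (ybar : F') (hyb : G.ρ ⟨y, hyO⟩ = ybar) (hytr : Transcendental k ybar)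
    [FiniteDimensional K⟮y⟯ F] (hdeg : finrank K⟮y⟯ F ≤ finrank k⟮ybar⟯ F') :
    ∃ Ψ' : F' →+* L', ∀ (f : F) (hf : f ∈ G.O), Red OL ρL (Ψ f) (Ψ' (G.ρ ⟨f, hf⟩)) := by
  subst hyb
  obtain ⟨h1, h2⟩ := finite_and_finrank_le G hyO hytr
  exact exists_reduction G hyO hytr τ Ψ hA hy hyL hcont (le_antisymm hdeg h2)

end Reduce

theorem finite_and_finrank_le' {y : F} (hyO : y ∈ G.O) (ybar : F') (hyb : G.ρ ⟨y, hyO⟩ = ybar)
    (hytr : Transcendental k ybar) [FiniteDimensional K⟮y⟯ F] :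
    FiniteDimensional k⟮ybar⟯ F' ∧ finrank k⟮ybar⟯ F' ≤ finrank K⟮y⟯ F := by
  subst hyb
  exact finite_and_finrank_le G hyO hytr

end Fermat.Agent.GoodRed
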