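import Fermat.Agent.GoodRed.Genus

/-!
# The genus inequality at auxiliary levels
-/

set_option autoImplicit false

noncomputable section

open ModularCurve AlgebraicCurve Module
open Fermat.Agent.FF
open scoped Fermat.Agent.GaussVal

namespace Fermat.Agent.GoodRed

open S18aux (DegThm DegEq bar_eq modG)

theorem nuTwo_eq_zero {M N : ℕ} (h : M ∣ N) (h0 : ∀ x : ZMod M, x ^ 2 + 1 ≠ 0) : nuTwo N = 0 := by
  have : IsEmpty {x : ZMod N // x ^ 2 + 1 = 0} := ⟨fun x => h0 (ZMod.castHom h (ZMod M) x) (by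
    have h1 := congrArg (ZMod.castHom h (ZMod M)) x.2
    rwa [map_add, map_pow, map_one, map_zero] at h1)⟩
  rw [nuTwo, Nat.card_of_isEmpty]

theorem nuThree_eq_zero {M N : ℕ} (h : M ∣ N) (h0 : ∀ x : ZMod M, x ^ 2 + x + 1 ≠ 0) :
    nuThree N = 0 := by
  have : IsEmpty {x : ZMod N // x ^ 2 + x + 1 = 0} := ⟨fun x => h0 (ZMod.castHom h (ZMod M) x) (by
    have h1 := congrArg (ZMod.castHom h (ZMod M)) x.2
    rwa [map_add, map_add, map_pow, map_one, map_zero] at h1)⟩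
  rw [nuThree, Nat.card_of_isEmpty]

theorem nuTwo_of_four {N : ℕ} (h : 4 ∣ N) : nuTwo N = 0 := nuTwo_eq_zero h (by decide)
theorem nuThree_of_four {N : ℕ} (h : 4 ∣ N) : nuThree N = 0 := nuThree_eq_zero h (by decide)
theorem nuTwo_of_nine {N : ℕ} (h : 9 ∣ N) : nuTwo N = 0 := nuTwo_eq_zero h (by decide)
theorem nuThree_of_nine {N : ℕ} (h : 9 ∣ N) : nuThree N = 0 := nuThree_eq_zero h (by decide)

theorem psi_four : dedekindPsi 4 = 6 := by decide +kernel
theorem psi_nine : dedekindPsi 9 = 12 := by decide +kernel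
theorem cuspCount_four : cuspCount 4 = 3 := by decide +kernel
theorem cuspCount_nine : cuspCount 9 = 4 := by decide +kernel

theorem genusFormula_four : genusFormula 4 = 0 := by
  rw [genusFormula, psi_four, cuspCount_four, nuTwo_of_four dvd_rfl, nuThree_of_four dvd_rfl]
  norm_num

theorem genusFormula_nine : genusFormula 9 = 0 := by
  rw [genusFormula, psi_nine, cuspCount_nine, nuTwo_of_nine dvd_rfl, nuThree_of_nine dvd_rfl]
  norm_num

variable {ℓ : ℕ} {A : ValuationSubring X0Emb.KK} (hℓ : ℓ.Prime) (hA : A.LiesOverPrime ℓ)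

include hℓ hA in
/-- genus inequality for `4 ∣ N`, `ℓ ∤ N` -/
theorem genus_le_of_four_dvd (N : ℕ) [NeZero N] (h4 : 4 ∣ N) (hℓN : ¬ ℓ ∣ N)
    (h3M : DegThm (IsLocalRing.ResidueField A) 4) (h3N : DegThm (IsLocalRing.ResidueField A) N) :
    genusFF X0Emb.KK (modularFunctionFieldBar N) ≤ genusFF (IsLocalRing.ResidueField A)
      (modularFunctionFieldFullC (IsLocalRing.ResidueField A) N) :=
  genus_le hℓ hA 4 N h4 (S18aux.natCast_ne_zero hℓ hA hℓN) h3M h3N genusFormula_four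
    (nuTwo_of_four dvd_rfl) (nuThree_of_four dvd_rfl) (nuTwo_of_four h4) (nuThree_of_four h4)

include hℓ hA in
/-- genus inequality for `9 ∣ N`, `ℓ ∤ N` -/
theorem genus_le_of_nine_dvd (N : ℕ) [NeZero N] (h9 : 9 ∣ N) (hℓN : ¬ ℓ ∣ N)
    (h3M : DegThm (IsLocalRing.ResidueField A) 9) (h3N : DegThm (IsLocalRing.ResidueField A) N) :
    genusFF X0Emb.KK (modularFunctionFieldBar N) ≤ genusFF (IsLocalRing.ResidueField A)
      (modularFunctionFieldFullC (IsLocalRing.ResidueField A) N) :=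
  genus_le hℓ hA 9 N h9 (S18aux.natCast_ne_zero hℓ hA hℓN) h3M h3N genusFormula_nine
    (nuTwo_of_nine dvd_rfl) (nuThree_of_nine dvd_rfl) (nuTwo_of_nine h9) (nuThree_of_nine h9)

/-- the auxiliary level -/
def auxLevel (ℓ N : ℕ) : ℕ := if ℓ = 2 then 9 * N else 4 * N

theorem auxLevel_ne_zero {ℓ N : ℕ} (hN : N ≠ 0) : auxLevel ℓ N ≠ 0 := by
  rw [auxLevel]; split_ifs <;> omega

theorem dvd_auxLevel (ℓ N : ℕ) : N ∣ auxLevel ℓ N := by
  rw [auxLevel]; split_ifs <;> exact Dvd.intro_left _ rfl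

include hℓ in
theorem not_dvd_auxLevel {N : ℕ} (hℓN : ¬ ℓ ∣ N) : ¬ ℓ ∣ auxLevel ℓ N := by
  rw [auxLevel]
  split_ifs with h
  · subst h
    rw [Nat.Prime.dvd_mul hℓ]
    rintro (h | h)
    · omega
    · exact hℓN h
  · rw [Nat.Prime.dvd_mul hℓ]
    rintro (h' | h')
    · apply h
      have h1 : ℓ ∣ 2 ^ 2 := h'
      exact (Nat.prime_dvd_prime_iff_eq hℓ Nat.prime_two).mp (hℓ.dvd_of_dvd_pow h1)
    · exact hℓN h'

include hℓ hA in
/-- **The genus inequality** (H2) at the auxiliary level `N' = 4N` (or `9N` if `ℓ = 2`). -/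
theorem genus_le_aux (N : ℕ) [NeZero N] (hℓN : ¬ ℓ ∣ N)
    (h3 : ∀ M : ℕ, M ≠ 0 → (M : IsLocalRing.ResidueField A) ≠ 0 →
      DegThm (IsLocalRing.ResidueField A) M) :
    genusFF X0Emb.KK (modularFunctionFieldBar (auxLevel ℓ N)) ≤
      genusFF (IsLocalRing.ResidueField A)
        (modularFunctionFieldFullC (IsLocalRing.ResidueField A) (auxLevel ℓ N)) := by
  have hne : NeZero (auxLevel ℓ N) := ⟨auxLevel_ne_zero (NeZero.ne N)⟩
  have hnd := not_dvd_auxLevel hℓ hℓN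
  have h3' : ∀ M : ℕ, M ≠ 0 → ¬ ℓ ∣ M → DegThm (IsLocalRing.ResidueField A) M :=
    fun M hM h => h3 M hM (S18aux.natCast_ne_zero hℓ hA h)
  by_cases h : ℓ = 2
  · have h9 : 9 ∣ auxLevel ℓ N := by rw [auxLevel, if_pos h]; exact Dvd.intro _ rfl
    exact genus_le_of_nine_dvd hℓ hA _ h9 hnd
      (h3' 9 (by norm_num) (fun hd => hnd (hd.trans h9))) (h3' _ hne.ne hnd)
  · have h4 : 4 ∣ auxLevel ℓ N := by rw [auxLevel, if_neg h]; exact Dvd.intro _ rfl
    exact genus_le_of_four_dvd hℓ hA _ h4 hnd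
      (h3' 4 (by norm_num) (fun hd => hnd (hd.trans h4))) (h3' _ hne.ne hnd)

/-- **S18** from the degree theorem (H3). -/
theorem S18_of_degThm (N : ℕ) [NeZero N] {ℓ : ℕ}
    [Fact ℓ.Prime] (hℓN : ¬ ℓ ∣ N) (A : ValuationSubring (AlgebraicClosure ℚ))
    (hA : A.LiesOverPrime ℓ)
    (h3 : ∀ M : ℕ, M ≠ 0 → (M : IsLocalRing.ResidueField A) ≠ 0 →
      DegThm (IsLocalRing.ResidueField A) M)
    (h : ModularCurve.ReductionInputsModL A N) (m : ℕ) (hm : ¬ ℓ ∣ m) (z : ModularCurve.JZero N)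
    (hmz : m • z = 0) (hz : ModularCurve.reductionModL A N z = 0) :
    z = 0 := by
  have hℓ : ℓ.Prime := Fact.out
  have hne : NeZero (auxLevel ℓ N) := ⟨auxLevel_ne_zero (NeZero.ne N)⟩
  exact S18aux.main N A hA (auxLevel ℓ N) hne.ne (dvd_auxLevel ℓ N) (degThm_KK N)
    (h3 N (NeZero.ne N) (S18aux.natCast_ne_zero hℓ hA hℓN)) (degThm_KK (auxLevel ℓ N))
    (h3 _ hne.ne (S18aux.natCast_ne_zero hℓ hA (not_dvd_auxLevel hℓ hℓN)))
    (genus_le_aux hℓ hA N hℓN h3) h m hm z hmz hz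

end Fermat.Agent.GoodRed
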