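import Fermat.Agent.GoodRed.Level
import Fermat.Agent.Igusa.Degree

/-!
# The genus inequality (H2), unconditionally
-/

set_option autoImplicit false

noncomputable section

open ModularCurve AlgebraicCurve Module
open Fermat.Agent.FF
open scoped Fermat.Agent.GaussVal

namespace Fermat.Agent.GoodRed

open S18aux (DegThm DegEq bar_eq modG)

theorem degThm_of_ne_zero (k : Type*) [Field k] {N : ℕ} (h0 : N ≠ 0) (hN : (N : k) ≠ 0) :
    DegThm k N := by
  have : NeZero N := ⟨h0⟩
  exact Igusa.finrank_full k N hN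

variable {ℓ : ℕ} {A : ValuationSubring X0Emb.KK} (hℓ : ℓ.Prime) (hA : A.LiesOverPrime ℓ)

include hℓ hA in
/-- **(H2)**: the genus inequality at the auxiliary level `4 N` (or `9 N` if `ℓ = 2`). -/
theorem genusFF_le_aux (N : ℕ) [NeZero N] (hℓN : ¬ ℓ ∣ N) :
    genusFF X0Emb.KK (modularFunctionFieldBar (auxLevel ℓ N)) ≤
      genusFF (IsLocalRing.ResidueField A)
        (modularFunctionFieldFullC (IsLocalRing.ResidueField A) (auxLevel ℓ N)) :=
  genus_le_aux hℓ hA N hℓN fun _ hM h => degThm_of_ne_zero _ hM h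

include hℓ hA in
theorem genusFF_le_of_four_dvd (N : ℕ) [NeZero N] (h4 : 4 ∣ N) (hℓN : ¬ ℓ ∣ N) :
    genusFF X0Emb.KK (modularFunctionFieldBar N) ≤ genusFF (IsLocalRing.ResidueField A)
      (modularFunctionFieldFullC (IsLocalRing.ResidueField A) N) :=
  genus_le_of_four_dvd hℓ hA N h4 hℓN
    (degThm_of_ne_zero _ (by norm_num)
      (S18aux.natCast_ne_zero hℓ hA (fun hd => hℓN (hd.trans h4))))
    (degThm_of_ne_zero _ (NeZero.ne N) (S18aux.natCast_ne_zero hℓ hA hℓN))

include hℓ hA in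
theorem genusFF_le_of_nine_dvd (N : ℕ) [NeZero N] (h9 : 9 ∣ N) (hℓN : ¬ ℓ ∣ N) :
    genusFF X0Emb.KK (modularFunctionFieldBar N) ≤ genusFF (IsLocalRing.ResidueField A)
      (modularFunctionFieldFullC (IsLocalRing.ResidueField A) N) :=
  genus_le_of_nine_dvd hℓ hA N h9 hℓN
    (degThm_of_ne_zero _ (by norm_num)
      (S18aux.natCast_ne_zero hℓ hA (fun hd => hℓN (hd.trans h9))))
    (degThm_of_ne_zero _ (NeZero.ne N) (S18aux.natCast_ne_zero hℓ hA hℓN))

end Fermat.Agent.GoodRed
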