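import Fermat.Agent.Residue.FF
import Fermat.Agent.FF.AlgClosed

/-!
# Riemann–Hurwitz lower bound in any characteristic
-/

set_option autoImplicit false

open AlgebraicCurve WithZero Module KaehlerDifferential
open Fermat.Agent.RR Fermat.Agent.FF Fermat.Agent.Residue
open scoped IntermediateField

namespace Fermat.Agent.GoodRed

variable {K F : Type*} [Field K] [Field F] [Algebra K F] [IsFF K F] [IsAlgClosed K]

omit [IsFF K F] [IsAlgClosed K] in
theorem ord_unif (v : Place K F) : v.ord (unif v) = 1 := by
  have h0 : unif v ≠ 0 := by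
    intro h
    have := adicValuation_unif v
    rw [h, map_zero] at this
    exact exp_ne_zero this.symm
  have h1 := v.adicValuation_eq_exp_neg_ord h0
  rw [adicValuation_unif, exp_inj] at h1
  omega

omit [IsFF K F] [IsAlgClosed K] in
theorem unif_ne_zero' (v : Place K F) : unif v ≠ 0 := by
  intro h
  have := adicValuation_unif v
  rw [h, map_zero] at this
  exact exp_ne_zero this.symm

theorem ord_D_ge (v : Place K F) {f : F} (hD : D K F f ≠ 0) :
    v.ord f - 1 ≤ v.ordDifferential (D K F f) := by
  have := nontrivial_kaehler_of_isFF K F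
  have := dCoordGenerates_of_isFF v
  have hf : f ≠ 0 := by rintro rfl; exact hD (map_zero _)
  set e := v.ord f with he
  have hπ0 := unif_ne_zero' v
  obtain ⟨u, hu0, huord, hfu⟩ : ∃ u : F, u ≠ 0 ∧ v.ord u = 0 ∧ f = u * (unif v) ^ e := by
    refine ⟨f * (unif v) ^ (-e), mul_ne_zero hf (zpow_ne_zero _ hπ0), ?_, ?_⟩
    · rw [v.ord_mul hf (zpow_ne_zero _ hπ0), v.ord_zpow, ord_unif]
      omega
    · rw [mul_assoc, ← zpow_add₀ hπ0, neg_add_cancel, zpow_zero, mul_one]
  have hub : u ∈ ball v 0 := by
    rw [mem_ball, v.adicValuation_eq_exp_neg_ord hu0, huord]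
    simp
  have h1 := v.differentialCoeff_smul_dCoord (D K F u)
  set c := v.differentialCoeff (D K F u) with hc
  have hcb : c ∈ ball v 0 := coeff_integral v (adicValuation_unif v) hub h1.symm
  have key : D K F f = (u * (e : F) * (unif v) ^ (e - 1) + (unif v) ^ e * c) • v.dCoord := by
    rw [add_smul, mul_smul, mul_smul, mul_smul, h1]
    conv_lhs => rw [hfu]
    rw [Derivation.leibniz, Derivation.leibniz_zpow]
    congr 2
    rw [← dCoord_eq, Int.cast_smul_eq_zsmul]
  have h2 : v.ordDifferential (D K F f) =
      v.ord (u * (e : F) * (unif v) ^ (e - 1) + (unif v) ^ e * c) := by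
    rw [Place.ordDifferential, v.differentialCoeff_unique key]
  rw [h2]
  have hne : u * (e : F) * (unif v) ^ (e - 1) + (unif v) ^ e * c ≠ 0 := by
    intro h0
    rw [h0, zero_smul] at key
    exact hD key
  have hval : v.adicValuation (u * (e : F) * (unif v) ^ (e - 1) + (unif v) ^ e * c) ≤
      exp (-(e - 1)) := by
    refine (Valuation.map_add _ _ _).trans (max_le ?_ ?_)
    · rw [map_mul, map_mul, map_zpow₀, adicValuation_unif]
      have h3 : v.adicValuation (e : F) ≤ 1 := by
        have h4 : (e : F) ∈ v.toValuationSubring := intCast_mem _ _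
        exact v.adicValuation_le_one_of_mem h4
      have h5 : v.adicValuation u ≤ 1 := by simpa using mem_ball.mp hub
      calc v.adicValuation u * v.adicValuation (e : F) * exp (-1 : ℤ) ^ (e - 1)
          ≤ 1 * 1 * exp (-1 : ℤ) ^ (e - 1) := by gcongr
        _ = exp (-(e - 1)) := by rw [one_mul, one_mul, ← exp_zsmul]; simp
    · rw [map_mul, map_zpow₀, adicValuation_unif]
      have h5 : v.adicValuation c ≤ 1 := by simpa using mem_ball.mp hcb
      calc exp (-1 : ℤ) ^ e * v.adicValuation c ≤ exp (-1 : ℤ) ^ e * 1 := by gcongr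
        _ = exp (-e) := by rw [mul_one, ← exp_zsmul]; simp
        _ ≤ exp (-(e - 1)) := exp_le_exp.mpr (by omega)
  rw [v.adicValuation_eq_exp_neg_ord hne, exp_le_exp] at hval
  omega

theorem ord_D_nonneg (v : Place K F) {f : F} (hD : D K F f ≠ 0) (hf : 0 ≤ v.ord f) :
    0 ≤ v.ordDifferential (D K F f) := by
  have := nontrivial_kaehler_of_isFF K F
  have := dCoordGenerates_of_isFF v
  have hf0 : f ≠ 0 := by rintro rfl; exact hD (map_zero _)
  have h1 := v.differentialCoeff_smul_dCoord (D K F f)
  have hfb : f ∈ ball v 0 := by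
    rw [mem_ball, v.adicValuation_eq_exp_neg_ord hf0]
    exact exp_le_exp.mpr (by omega)
  have hcb := coeff_integral v (adicValuation_unif v) hfb h1.symm
  have hc0 : v.differentialCoeff (D K F f) ≠ 0 := by
    intro h
    rw [h, zero_smul] at h1
    exact hD h1.symm
  rw [mem_ball, v.adicValuation_eq_exp_neg_ord hc0, exp_le_exp] at hcb
  show 0 ≤ v.ord (v.differentialCoeff (D K F f))
  omega

/-- **Riemann–Hurwitz lower bound.** -/
theorem rh_lower (t : F) (ht : Transcendental K t) [Algebra.IsSeparable K⟮t⟯ F]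
    (V : Finset (Place K F)) (c : Place K F → K)
    (hc : ∀ v ∈ V, 0 < v.ord (t - algebraMap K F (c v))) :
    ∑ v ∈ V, (v.ord (t - algebraMap K F (c v)) - 1) - 2 * (finrank K⟮t⟯ F : ℤ) ≤
      2 * (genusFF K F : ℤ) - 2 := by
  classical
  have hnt := nontrivial_kaehler_of_isFF K F
  have hcan := hasCanonicalDivisor_of_isFF K F
  have hD : D K F t ≠ 0 := by
    intro h0
    have h1 := span_D_of_isSeparable (K := K) t
    rw [h0, Submodule.span_singleton_eq_bot.mpr rfl] at h1
    exact bot_ne_top h1
  have ht0 : t ≠ 0 := by rintro rfl; exact ht isAlgebraic_zero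
  set W := canonicalDivisorOf hD with hW
  have hWv : ∀ v : Place K F, W v = v.ordDifferential (D K F t) := canonicalDivisorOf_apply hD
  rw [← (canonical_of_isFF hD hWv).2.1]
  set P := zeroDiv (K := K) t⁻¹ with hP
  have hdegP : Divisor.degree P = finrank K⟮t⟯ F := by
    rw [hP, degree_zeroDiv (FF.transcendental_inv ht), FF.isFF_nontrivial_adjoin_inv]
  set D0 : Divisor K F := ∑ v ∈ V, Finsupp.single v (v.ord (t - algebraMap K F (c v)) - 1) -
    (2 : ℤ) • P with hD0
  have hdeg0 : Divisor.degree D0 =
      ∑ v ∈ V, (v.ord (t - algebraMap K F (c v)) - 1) - 2 * (finrank K⟮t⟯ F : ℤ) := by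
    rw [hD0, map_sub, map_sum, map_zsmul, hdegP, smul_eq_mul]
    congr 1
    refine Finset.sum_congr rfl fun v _ => ?_
    rw [Divisor.degree_single, FF.deg_eq_one]
    simp
  rw [← hdeg0]
  have hle : D0 ≤ W := by
    intro v
    have h1 : D0 v = (if v ∈ V then v.ord (t - algebraMap K F (c v)) - 1 else 0) - 2 * P v := by
      rw [hD0, Finsupp.sub_apply, Finsupp.smul_apply, smul_eq_mul, Finset.sum_apply']
      congr 1
      by_cases hv : v ∈ V
      · rw [if_pos hv, Finset.sum_eq_single v]
        · simp
        · intro w _ hwv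
          rw [Finsupp.single_eq_of_ne]
          exact hwv.symm
        · intro h; exact absurd hv h
      · rw [if_neg hv]
        refine Finset.sum_eq_zero fun w hw => ?_
        rw [Finsupp.single_eq_of_ne]
        rintro rfl
        exact hv hw
    rw [h1, hWv]
    have hPv : P v = max (v.ord t⁻¹) 0 := rfl
    rw [hPv, v.ord_inv]
    by_cases hv : v ∈ V
    · rw [if_pos hv]
      have h2 := hc v hv
      have h3 : D K F (t - algebraMap K F (c v)) = D K F t := by
        rw [map_sub, Derivation.map_algebraMap, sub_zero]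
      have h4 := ord_D_ge v (f := t - algebraMap K F (c v)) (by rw [h3]; exact hD)
      rw [h3] at h4
      have h5 : 0 ≤ max (-v.ord t) 0 := le_max_right _ _
      omega
    · rw [if_neg hv]
      rcases le_or_gt 0 (v.ord t) with h2 | h2
      · have h3 := ord_D_nonneg v hD h2
        have h5 : 0 ≤ max (-v.ord t) 0 := le_max_right _ _
        omega
      · have h3 := ord_D_ge v hD
        have h5 : -v.ord t ≤ max (-v.ord t) 0 := le_max_left _ _
        omega
  have hsub : 0 ≤ Divisor.degree (W - D0) := by
    rw [degree_eq_sum (W - D0) _ (Finset.Subset.refl _)]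
    refine Finset.sum_nonneg fun v _ => ?_
    have := hle v
    refine mul_nonneg ?_ (by positivity)
    rw [Finsupp.sub_apply]
    omega
  rw [map_sub] at hsub
  omega

end Fermat.Agent.GoodRed
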