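import Fermat.Agent.GoodRed.CuspRed
import Fermat.Agent.P1Count.ParityGamma0

/-!
# Number of cusps of the special fibre
-/

set_option autoImplicit false

noncomputable section

open ModularCurve HahnSeries Module Polynomial AlgebraicCurve
open Fermat.Agent.X0Emb Fermat.Agent.GaussVal Fermat.Agent.Deuring
open scoped MatrixGroups IntermediateField Fermat.Agent.GaussVal

namespace Fermat.Agent.GoodRed

variable {ℓ N : ℕ} {A : ValuationSubring KK}

variable (hℓ : ℓ.Prime) (hA : A.LiesOverPrime ℓ)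
  (hE : FF N = modularFunctionFieldFullC KK N)
  [FiniteDimensional KK⟮jEl KK (FF N) N hE⟯ (FF N)]
  (hdeg : finrank KK⟮jEl KK (FF N) N hE⟯ (FF N) ≤ finrank
    (IsLocalRing.ResidueField A)⟮jB A N⟯
        (modularFunctionFieldFullC (IsLocalRing.ResidueField A) N))
  [NeZero N]

/-- the reduction of `embInf x` -/
def embRed (x : XX N) : modularFunctionFieldFullC (IsLocalRing.ResidueField A) N →+*
        LaurentSeries (IsLocalRing.ResidueField A) :=
  (exists_embRed hℓ hA hE hdeg x).choose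

theorem red_embInf (x : XX N) (f : FF N) (hf : f ∈ (GD hℓ hA hE hdeg).O) :
    Red (gaussSubring A) (gaussRed A) (embInf x f)
      (embRed hℓ hA hE hdeg x ((GD hℓ hA hE hdeg).ρ ⟨f, hf⟩)) :=
  (exists_embRed hℓ hA hE hdeg x).choose_spec f hf

theorem embRed_eq (x : XX N) {f : FF N} (hf : f ∈ (GD hℓ hA hE hdeg).O)
    {w : LaurentSeries (IsLocalRing.ResidueField A)}
    (h : Red (gaussSubring A) (gaussRed A) (embInf x f) w) :
    embRed hℓ hA hE hdeg x ((GD hℓ hA hE hdeg).ρ ⟨f, hf⟩) = w :=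
  (red_embInf hℓ hA hE hdeg x f hf).unique h

theorem embRed_algebraMap (x : XX N) (c : IsLocalRing.ResidueField A) :
    embRed hℓ hA hE hdeg x (algebraMap _ _ c) = algebraMap _ _ c := by
  obtain ⟨a, rfl⟩ := IsLocalRing.residue_surjective c
  have h1 := (GD hℓ hA hE hdeg).ρ_algebraMap a
  have h2 : embRed hℓ hA hE hdeg x ((GD hℓ hA hE hdeg).ρ ⟨algebraMap KK (FF N) a,
      ((GD hℓ hA hE hdeg).mem_O_iff _).mpr a.2⟩) =
      algebraMap _ _ (IsLocalRing.residue A a) := by
    apply embRed_eq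
    rw [embInf_algebraMap]
    exact red_algebraMap a
  rw [h1] at h2
  exact h2

theorem embRed_jB (x : XX N) :
    embRed hℓ hA hE hdeg x (jB A N) = qExpand _ N (jqModC (IsLocalRing.ResidueField A)) := by
  rw [← ρ_jEl hℓ hA hE hdeg]
  apply embRed_eq
  rw [jEl_eq_jF, embInf_jF]
  exact red_qExpand N red_jqModC

/-- `zetaK N` as a unit of `A`. -/
def zetaA (A : ValuationSubring KK) (N : ℕ) [NeZero N] : Aˣ :=
  (exists_unit_of_pow_eq_one (A := A) (NeZero.ne N)
    (IsPrimitiveRoot.coe_units_iff.mp (isPrimitiveRoot_zetaK N)).pow_eq_one).choose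

theorem map_zetaA (A : ValuationSubring KK) (N : ℕ) [NeZero N] :
    Units.map (A.subtype : A →* KK) (zetaA A N) = zetaK N :=
  (exists_unit_of_pow_eq_one (A := A) (NeZero.ne N)
    (IsPrimitiveRoot.coe_units_iff.mp (isPrimitiveRoot_zetaK N)).pow_eq_one).choose_spec.1

/-- reduction of `zetaK N` -/
def zetaR (A : ValuationSubring KK) (N : ℕ) [NeZero N] : (IsLocalRing.ResidueField A)ˣ :=
  Units.map (IsLocalRing.residue A : A →* IsLocalRing.ResidueField A) (zetaA A N)

theorem isPrimitiveRoot_zetaR (hN : (N : IsLocalRing.ResidueField A) ≠ 0) :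
    IsPrimitiveRoot (zetaR A N) N := by
  apply isPrimitiveRoot_residue hN
  rw [map_zetaA]
  exact IsPrimitiveRoot.coe_units_iff.mp (isPrimitiveRoot_zetaK N)

theorem embRed_T (x : XX N) (f : modularFunctionFieldFullC (IsLocalRing.ResidueField A) N) :
    embRed hℓ hA hE hdeg (ModularGroup.T • x) f =
      twist (zetaR A N)⁻¹ (embRed hℓ hA hE hdeg x f) := by
  obtain ⟨⟨f, hf⟩, rfl⟩ := (GD hℓ hA hE hdeg).ρ_surj f
  apply embRed_eq
  rw [embInf_T]
  have h1 := red_twist (zetaA A N)⁻¹ (red_embInf hℓ hA hE hdeg x f hf)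
  rw [map_inv, map_inv, map_zetaA] at h1
  exact h1

theorem embRed_T_pow (x : XX N) (f : modularFunctionFieldFullC (IsLocalRing.ResidueField A) N)
    (r : ℕ) : embRed hℓ hA hE hdeg (ModularGroup.T ^ r • x) f =
      twist ((zetaR A N)⁻¹ ^ r) (embRed hℓ hA hE hdeg x f) := by
  induction r with
  | zero => simp [twist_one]
  | succ r ih =>
    rw [pow_succ', mul_smul, embRed_T, ih]
    ext n
    simp only [twist_coeff]
    rw [← mul_assoc, ← Units.val_mul, ← mul_zpow, ← pow_succ']

theorem dvd_order_of_T_pow_smul_red (hN : (N : IsLocalRing.ResidueField A) ≠ 0) {x : XX N} {r : ℕ}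
    (h : ModularGroup.T ^ r • x = x)
    {f : modularFunctionFieldFullC (IsLocalRing.ResidueField A) N} (hf : f ≠ 0) :
    (N : ℤ) ∣ r * (embRed hℓ hA hE hdeg x f).order := by
  have h1 := embRed_T_pow hℓ hA hE hdeg x f r
  rw [h] at h1
  set g := embRed hℓ hA hE hdeg x f with hg
  have h0 : g ≠ 0 := (_root_.map_ne_zero _).mpr hf
  have h2 := congrArg (fun z : LaurentSeries (IsLocalRing.ResidueField A) ↦ z.coeff g.order) h1
  simp only [twist_coeff] at h2
  have h3 : g.coeff g.order ≠ 0 := by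
    rw [Ne, HahnSeries.coeff_order_eq_zero]; exact h0
  have h4 : ((((zetaR A N)⁻¹ ^ r) ^ g.order : (IsLocalRing.ResidueField A)ˣ) :
      IsLocalRing.ResidueField A) = 1 := by
    apply mul_right_cancel₀ h3
    rw [one_mul]; exact h2.symm
  have h5 : (zetaR A N) ^ ((r : ℤ) * g.order) = 1 := by
    have h6 : ((zetaR A N)⁻¹ ^ r) ^ g.order = 1 := Units.ext h4
    rw [← zpow_natCast, ← zpow_mul, inv_zpow, inv_eq_one] at h6
    exact h6
  exact ((isPrimitiveRoot_zetaR hN).zpow_eq_one_iff_dvd _).mp h5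

omit [FiniteDimensional KK⟮jEl KK (FF N) N hE⟯ (FF N)] in
/-- an `N`-th root of unity with trivial reduction is trivial. -/
theorem eq_one_of_residue (hN : (N : IsLocalRing.ResidueField A) ≠ 0) {w : Aˣ} (hw : w ^ N = 1)
    (hw1 : Units.map (IsLocalRing.residue A : A →* IsLocalRing.ResidueField A) w = 1) : w = 1 := by
  have hinj : Function.Injective (Units.map (A.subtype : A →* KK)) :=
    Units.map_injective Subtype.val_injective
  have h1 : (Units.map (A.subtype : A →* KK) w) ^ N = 1 := by rw [← map_pow, hw, map_one]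
  have h2 : IsPrimitiveRoot (zetaK N) N := IsPrimitiveRoot.coe_units_iff.mp
    (isPrimitiveRoot_zetaK N)
  obtain ⟨i, -, hi'⟩ := (isPrimitiveRoot_zetaK N).eq_pow_of_pow_eq_one
    (ξ := ((Units.map (A.subtype : A →* KK) w : KKˣ) : KK)) (by
      rw [← Units.val_pow_eq_pow_val, h1, Units.val_one])
  have hi : zetaK N ^ i = Units.map (A.subtype : A →* KK) w := Units.ext (by
    rw [Units.val_pow_eq_pow_val]; exact hi')
  rw [← map_zetaA A N, ← map_pow] at hi
  have h3 := hinj hi
  have h4 : (zetaR A N) ^ i = 1 := by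
    rw [zetaR, ← map_pow, h3, hw1]
  have h5 := ((isPrimitiveRoot_zetaR hN).pow_eq_one_iff_dvd i).mp h4
  apply hinj
  rw [map_one, ← hi, map_pow, map_zetaA]
  exact (h2.pow_eq_one_iff_dvd i).mpr h5

/-- the element `j(Nτ)` of the function field -/
def jN (N : ℕ) [NeZero N] : FF N := (jdA N N dvd_rfl : FF N)

theorem jN_mem : jN N ∈ (GD hℓ hA hE hdeg).O := by
  rw [mem_modGauss_O]
  exact (red_qExpand N (red_jqModC (A := A))).choose

theorem embRed_jN (x : XX N) :
    ∃ (a d' : ℕ) (_ : NeZero a) (_ : NeZero d') (_ : NeZero (a * (N / d'))) (u : Aˣ),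
      a * d' = N ∧ u ^ d' = 1 ∧
      embInfA x (jdA N N dvd_rfl) = qExpand KK (a * (N / d'))
        (twist (Units.map (A.subtype : A →* KK) u) (jqModC KK)) ∧
      embRed hℓ hA hE hdeg x ((GD hℓ hA hE hdeg).ρ ⟨jN N, jN_mem hℓ hA hE hdeg⟩) =
        qExpand _ (a * (N / d')) (twist (Units.map
          (IsLocalRing.residue A : A →* IsLocalRing.ResidueField A) u)
          (jqModC (IsLocalRing.ResidueField A))) := by
  obtain ⟨a, d', ha, hd', hne, z, h1, h2, h3⟩ := embInfA_jdA x N dvd_rfl
  obtain ⟨u, hu, hu1⟩ := exists_unit_of_pow_eq_one (A := A) (NeZero.ne d') h2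
  rw [← hu] at h3
  refine ⟨a, d', ha, hd', hne, u, h1, hu1, h3, ?_⟩
  apply embRed_eq
  have h4 : embInf x (jN N) = embInfA x (jdA N N dvd_rfl) := embInf_coe x _
  rw [h4, h3]
  exact red_qExpand _ (red_twist u red_jqModC)

theorem embRed_injective (hN : (N : IsLocalRing.ResidueField A) ≠ 0) :
    Function.Injective (embRed hℓ hA hE hdeg) := by
  intro x y hxy
  obtain ⟨a, d, ha, hd, hne, u, h1, h2, h3, h4⟩ := embRed_jN hℓ hA hE hdeg x
  obtain ⟨a', d', ha', hd', hne', u', h1', h2', h3', h4'⟩ := embRed_jN hℓ hA hE hdeg y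
  rw [hxy, h4'] at h4
  -- orders
  have h5 := congrArg HahnSeries.order h4
  rw [order_qExpand, order_qExpand, order_twist, order_twist, order_jqModC] at h5
  have hNd : N / d = a := by
    rw [← h1]; exact Nat.mul_div_cancel _ (Nat.pos_of_ne_zero (NeZero.ne d))
  have hNd' : N / d' = a' := by
    rw [← h1']; exact Nat.mul_div_cancel _ (Nat.pos_of_ne_zero (NeZero.ne d'))
  have h6 : a' * (N / d') = a * (N / d) := by
    have : ((a' * (N / d') : ℕ) : ℤ) = ((a * (N / d) : ℕ) : ℤ) := by linarith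
    exact_mod_cast this
  have haa : a' = a := by
    rw [hNd, hNd'] at h6
    exact Nat.mul_self_inj.mp h6
  subst haa
  have hdd : d' = d := Nat.eq_of_mul_eq_mul_left (Nat.pos_of_ne_zero (NeZero.ne a'))
    (h1'.trans h1.symm)
  subst hdd
  -- leading coefficients
  have h7 := congrArg (fun z : LaurentSeries (IsLocalRing.ResidueField A) =>
    z.coeff (((a' * (N / d') : ℕ) : ℤ) * (-1))) h4
  simp only [qExpand_coeff_mul, twist_coeff, coeff_jqModC_neg_one, mul_one] at h7
  have h8 : Units.map (IsLocalRing.residue A : A →* IsLocalRing.ResidueField A) u' =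
      Units.map (IsLocalRing.residue A : A →* IsLocalRing.ResidueField A) u := by
    have h9 := Units.ext h7
    rw [zpow_neg_one, zpow_neg_one] at h9
    exact inv_injective h9
  have h10 : u' * u⁻¹ = 1 := by
    apply eq_one_of_residue hN
    · rw [← h1', mul_comm a' d', pow_mul, mul_pow, inv_pow, h2, h2', inv_one, mul_one, one_pow]
    · rw [map_mul, map_inv, h8, mul_inv_cancel]
  have h11 : u' = u := mul_inv_eq_one.mp h10
  apply eq_of_embInfA_jN
  rw [h3, h3', h11]

theorem finite_XX (N : ℕ) [NeZero N] : Finite (XX N) := inferInstance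

include hℓ hA hdeg in
/-- **Number of places over `j = ∞`.** -/
theorem card_places_infty [IsAlgClosed (IsLocalRing.ResidueField A)]
    [FF.IsFF (IsLocalRing.ResidueField A)
      (modularFunctionFieldFullC (IsLocalRing.ResidueField A) N)]
    (hN : (N : IsLocalRing.ResidueField A) ≠ 0)
    (hcard : Nat.card (XX N) = finrank (IsLocalRing.ResidueField A)⟮jB A N⟯
        (modularFunctionFieldFullC (IsLocalRing.ResidueField A) N)) :
    Nat.card {v : Place (IsLocalRing.ResidueField A)
      (modularFunctionFieldFullC (IsLocalRing.ResidueField A) N) // 0 < v.ord (jB A N)⁻¹} =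
      cuspCount N := by
  have hfin : Finite (XX N) := finite_XX N
  rw [← P1Count.card_orbits_T N]
  refine Eq.trans ?_ (P1Parity.card_orbits_zpowers (X := XX N) ModularGroup.T).symm
  refine card_places_laurent (Nat.pos_of_ne_zero (NeZero.ne N)) (jB A N)
    (transcendental_jEl _ _ N rfl) (embRed hℓ hA hE hdeg) (embRed_injective hℓ hA hE hdeg hN)
    hcard (embRed_algebraMap hℓ hA hE hdeg) _ (embRed_jB hℓ hA hE hdeg) ?_
    (MulAction.toPerm ModularGroup.T) ?_ ?_
  · rw [order_qExpand, order_jqModC]; ring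
  · intro x f
    rw [MulAction.toPerm_apply, embRed_T, order_twist]
  · intro x r h f hf
    apply dvd_order_of_T_pow_smul_red hℓ hA hE hdeg hN _ hf
    have h1 := P1Parity.toPerm_zpow ModularGroup.T (r : ℤ) x
    rw [zpow_natCast, zpow_natCast] at h1
    rw [← h1]
    exact h

end Fermat.Agent.GoodRed
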