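import Fermat.Agent.FF.Orbits
import Fermat.Agent.FF.AlgClosed
import Fermat.Prelude.Def_ModularCurve_ReductionModL

/-!
# Places versus orbits of embeddings, any characteristic

Version of `Fermat.Agent.FFOrb.card_places_of_sum` (helper80) without the characteristic zero
assumption: separability follows from the existence of enough embeddings.
-/

set_option autoImplicit false

noncomputable section

open AlgebraicCurve IsLocalRing WithZero
open scoped IntermediateField Polynomial
open Fermat.Agent.FFOrb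

namespace Fermat.Agent.GoodRed

variable {K F : Type*} [Field K] [Field F] [Algebra K F]

theorem isSeparable_of_embeddings {E L X : Type*} [Field E] [Field L] [Algebra E F]
    [FiniteDimensional E F] [Algebra E L] [Fintype X]
    (Ψ : X → (F →ₐ[E] L)) (hinj : Function.Injective Ψ)
    (hcard : Fintype.card X = Module.finrank E F) : Algebra.IsSeparable E F := by
  classical
  let Ω := AlgebraicClosure L
  let Φ : X → (F →ₐ[E] Ω) := fun x => (IsScalarTower.toAlgHom E L Ω).comp (Ψ x)
  have hΦ : Function.Injective Φ := by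
    intro x x' h
    apply hinj
    ext f
    have h1 := DFunLike.congr_fun h f
    exact (algebraMap L Ω).injective h1
  rw [← Field.finSepDegree_eq_finrank_iff]
  apply le_antisymm (Field.finSepDegree_le_finrank E F)
  rw [Field.finSepDegree_eq_of_isAlgClosed E F Ω, ← hcard, ← Nat.card_eq_fintype_card]
  exact Nat.card_le_card_of_injective Φ hΦ

section

open IntermediateField.algebraAdjoinAdjoin

theorem isDedekindDomain_BRing' (y : F) (hy : Transcendental K y) [FiniteDimensional K⟮y⟯ F]
    [Algebra.IsSeparable K⟮y⟯ F] :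
    IsDedekindDomain (BRing (K := K) y) := by
  have := isPrincipalIdealRing_adjoin y hy
  exact IsIntegralClosure.isDedekindDomain (Algebra.adjoin K {y}) K⟮y⟯ F (BRing (K := K) y)

theorem exists_map_lt_one (y : F) (hy : Transcendental K y) [FiniteDimensional K⟮y⟯ F]
    [Algebra.IsSeparable K⟮y⟯ F]
    {L X : Type*} [Field L] [Algebra K⟮y⟯ L] [Fintype X]
    (Ψ : X → (F →ₐ[K⟮y⟯] L)) (hinj : Function.Injective Ψ)
    (hcard : Fintype.card X = Module.finrank K⟮y⟯ F) (W : Valuation L ℤᵐ⁰)
    (hWK : ∀ x (c : K), W (Ψ x (algebraMap K F c)) ≤ 1) (hWy : ∀ x, W (Ψ x y) < 1)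
    (v : Place K F) (hyv : v.adicValuation y < 1)
    (b : BRing (K := K) y) (hb : v.adicValuation (b : F) < 1) :
    ∃ x, W (Ψ x b) < 1 := by
  have := isPrincipalIdealRing_adjoin y hy
  have := isDedekindDomain_BRing' y hy
  have := isFractionRing_BRing (K := K) y
  have : Module.Finite (Algebra.adjoin K {y}) (BRing (K := K) y) :=
    IsIntegralClosure.finite (Algebra.adjoin K {y}) K⟮y⟯ F (BRing (K := K) y)
  have hyV : y ∈ v.toValuationSubring := by
    rcases eq_or_ne y 0 with h0 | h0
    · rw [h0]; exact zero_mem _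
    · rw [FFDiff.mem_iff_ord_nonneg v h0]
      have := v.adicValuation_le_one_iff.mp hyv.le
      exact this.resolve_left h0
  have hX : Nonempty X := by
    rw [← Fintype.card_pos_iff, hcard]
    exact Module.finrank_pos
  -- the norm of `b` is in `K[y]` and divisible by `b` in `B`
  obtain ⟨z, hz⟩ := Algebra.dvd_algebraMap_intNorm_self (A := Algebra.adjoin K {y})
    (B := BRing (K := K) y) b
  set a := Algebra.intNorm (Algebra.adjoin K {y}) (BRing (K := K) y) b with ha
  have hnorm : algebraMap (Algebra.adjoin K {y}) K⟮y⟯ a = Algebra.norm K⟮y⟯ (b : F) := by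
    rw [ha]
    exact Algebra.algebraMap_intNorm (A := Algebra.adjoin K {y}) (K := K⟮y⟯) (L := F)
      (B := BRing (K := K) y) b
  have hav : v.adicValuation (a : F) < 1 := by
    have h1 : (a : F) = (b : F) * (z : F) := by
      have := congrArg (algebraMap (BRing (K := K) y) F) hz
      exact this
    rw [h1, map_mul]
    exact mul_lt_one_of_lt_of_le hb (v.adicValuation_le_one_of_mem (mem_of_BRing y v hyV z))
  obtain ⟨q, hq⟩ := exists_eq_mul_of_adicValuation_lt_one y v hyv a.2 hav
  by_contra hcon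
  push Not at hcon
  have hprod := algebraMap_norm_eq_prod Ψ hinj hcard (b : F)
  have h2 : (1 : ℤᵐ⁰) ≤ W (∏ x, Ψ x b) := by
    rw [map_prod]
    exact Finset.one_le_prod' fun x _ => hcon x
  rw [← hprod, ← hnorm] at h2
  obtain ⟨x⟩ := hX
  have h3 : algebraMap K⟮y⟯ L (algebraMap (Algebra.adjoin K {y}) K⟮y⟯ a) = Ψ x (a : F) := by
    rw [← (Ψ x).commutes]
    rfl
  rw [h3, hq, map_mul, map_mul] at h2
  have h4 : W (Ψ x (Polynomial.aeval y q)) ≤ 1 := by
    rw [Polynomial.aeval_eq_sum_range, map_sum]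
    refine Valuation.map_sum_le _ fun i _ => ?_
    rw [Algebra.smul_def, map_mul, map_mul, map_pow, map_pow]
    exact mul_le_one' (hWK x _) (pow_le_one₀ zero_le (hWy x).le)
  exact absurd h2 (not_le.mpr (mul_lt_one_of_lt_of_le (hWy x) h4))

/-- Main counting theorem, given the fundamental identity for `y`. -/
theorem card_places_of_sum {L : Type*} [Field L]
    (y : F) (hy : Transcendental K y) [FiniteDimensional K⟮y⟯ F]
    (hsum : ∀ (h : {v : Place K F | 0 < v.ord y}.Finite),
      ∑ v ∈ h.toFinset, v.ord y = Module.finrank K⟮y⟯ F)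
    {X : Type*} [Finite X] (Ψ : X → (F →+* L)) (hinj : Function.Injective Ψ)
    (hcard : Nat.card X = Module.finrank K⟮y⟯ F)
    (hΨK : ∀ x x' (c : K), Ψ x (algebraMap K F c) = Ψ x' (algebraMap K F c))
    (hΨy : ∀ x x', Ψ x y = Ψ x' y)
    (o : L → ℤ) (o_mul : ∀ f g, f ≠ 0 → g ≠ 0 → o (f * g) = o f + o g)
    (o_add : ∀ f g, f ≠ 0 → g ≠ 0 → f + g ≠ 0 → min (o f) (o g) ≤ o (f + g))
    (oK : ∀ x (c : K), c ≠ 0 → o (Ψ x (algebraMap K F c)) = 0)
    (oy : ∀ x, 0 < o (Ψ x y)) (π : Equiv.Perm X)
    (hπ : ∀ x f, f ≠ 0 → o (Ψ (π x) f) = o (Ψ x f))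
    (hdvd : ∀ x (r : ℕ), 0 < r → (π ^ r) x = x → ∀ f, f ≠ 0 → o (Ψ x y) ∣ r * o (Ψ x f)) :
    {v : Place K F | 0 < v.ord y}.Finite ∧
    Nat.card {v : Place K F // 0 < v.ord y}
      = Nat.card (MulAction.orbitRel.Quotient (Subgroup.zpowers π) X) := by
  classical
  have := Fintype.ofFinite X
  have hy0 : y ≠ 0 := by
    rintro rfl
    exact hy isAlgebraic_zero
  set W := valOfOrd o o_mul o_add with hW
  have hWap : ∀ f : L, f ≠ 0 → W f = exp (-(o f)) := fun f hf => valOfOrd_apply o o_mul o_add hf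
  have hne : ∀ x (f : F), f ≠ 0 → Ψ x f ≠ 0 := fun x f hf => by simpa using hf
  have hWK : ∀ x (c : K), W (Ψ x (algebraMap K F c)) ≤ 1 := by
    intro x c
    rcases eq_or_ne c 0 with rfl | hc
    · simp
    · rw [hWap _ (hne x _ (by simpa using hc)), oK x c hc]
      simp
  have hWy : ∀ x, W (Ψ x y) < 1 := by
    intro x
    rw [hWap _ (hne x y hy0), ← exp_zero, exp_lt_exp]
    have := oy x
    omega
  -- the places attached to the embeddings
  let w : X → Valuation F ℤᵐ⁰ := fun x => W.comap (Ψ x)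
  have hwK : ∀ x (a : K), w x (algebraMap K F a) ≤ 1 := fun x a => hWK x a
  have hwnt : ∀ x, ∃ f : F, f ≠ 0 ∧ w x f < 1 := fun x => ⟨y, hy0, hWy x⟩
  let pl : X → Place K F := fun x => placeOf (w x) (hwK x) (hwnt x)
  have hmult : ∀ x, ∃ m : ℤ, 0 < m ∧ ∀ f : F, f ≠ 0 → o (Ψ x f) = m * (pl x).ord f := by
    intro x
    obtain ⟨m, hm, hmf⟩ := exists_mult (w x) (hwK x) (hwnt x)
    refine ⟨m, hm, fun f hf => ?_⟩
    have h1 := hmf f hf
    have h2 : w x f = exp (-(o (Ψ x f))) := hWap _ (hne x f hf)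
    rw [h2, exp_inj] at h1
    have : (pl x).ord f = (placeOf (w x) (hwK x) (hwnt x)).ord f := rfl
    rw [this]
    omega
  have hplpos : ∀ x, 0 < (pl x).ord y := by
    intro x
    obtain ⟨m, hm, hmf⟩ := hmult x
    have h1 := oy x
    rw [hmf y hy0] at h1
    exact (mul_pos_iff_of_pos_left hm).mp h1
  have hplπ : ∀ x, pl (π x) = pl x := by
    intro x
    have h1 : w (π x) = w x := by
      refine Valuation.ext fun f => ?_
      rcases eq_or_ne f 0 with rfl | hf
      · simp
      · show W (Ψ (π x) f) = W (Ψ x f)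
        rw [hWap _ (hne _ f hf), hWap _ (hne _ f hf), hπ x f hf]
    apply Place.ext
    show (w (π x)).valuationSubring = (w x).valuationSubring
    rw [h1]
  -- surjectivity onto the places over `y = 0`
  have hX : Nonempty X := by
    by_contra hcon
    rw [not_nonempty_iff] at hcon
    rw [Nat.card_of_isEmpty] at hcard
    exact absurd hcard.symm (Module.finrank_pos (R := K⟮y⟯) (M := F)).ne'
  obtain ⟨x0⟩ := hX
  have hagree : ∀ x (e : K⟮y⟯), Ψ x (e : F) = Ψ x0 (e : F) := by
    rintro x ⟨e, he⟩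
    show Ψ x e = Ψ x0 e
    induction he using IntermediateField.adjoin_induction with
    | mem z hz => rw [Set.mem_singleton_iff.mp hz]; exact hΨy _ _
    | algebraMap c => exact hΨK _ _ _
    | add a b _ _ ha hb => rw [map_add, map_add, ha, hb]
    | inv a _ ha => rw [map_inv₀, map_inv₀, ha]
    | mul a b _ _ ha hb => rw [map_mul, map_mul, ha, hb]
  let : Algebra K⟮y⟯ L := ((Ψ x0).comp (algebraMap K⟮y⟯ F)).toAlgebra
  let Ψ' : X → (F →ₐ[K⟮y⟯] L) := fun x =>
    { Ψ x with commutes' := fun e => hagree x e }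
  have hinj' : Function.Injective Ψ' := by
    intro x x' h
    apply hinj
    ext f
    exact DFunLike.congr_fun h f
  have hsep : Algebra.IsSeparable K⟮y⟯ F := isSeparable_of_embeddings Ψ' hinj'
    (by rw [← Nat.card_eq_fintype_card, hcard])
  have hsurj : ∀ v : Place K F, 0 < v.ord y → ∃ x, pl x = v := by
    intro v hv
    have := isDedekindDomain_BRing' y hy
    have := isFractionRing_BRing (K := K) y
    have hyV : y ∈ v.toValuationSubring := (FFDiff.mem_iff_ord_nonneg v hy0).mpr hv.le
    have hyv : v.adicValuation y < 1 := by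
      rw [v.adicValuation_eq_exp_neg_ord hy0, ← exp_zero, exp_lt_exp]
      omega
    have hyP : ∀ x, y ∈ (pl x).toValuationSubring := fun x =>
      (FFDiff.mem_iff_ord_nonneg _ hy0).mpr (hplpos x).le
    have hcover : (center (BRing (K := K) y) v (mem_of_BRing y v hyV) : Set (BRing (K := K) y)) ⊆
        ⋃ x ∈ ((Finset.univ : Finset X) : Set X),
          (center (BRing (K := K) y) (pl x) (mem_of_BRing y (pl x) (hyP x)) :
            Set (BRing (K := K) y)) := by
      intro b hb
      rw [SetLike.mem_coe, mem_center_iff] at hb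
      obtain ⟨x, hx⟩ := exists_map_lt_one y hy Ψ' hinj'
        (by rw [← Nat.card_eq_fintype_card, hcard]) W hWK hWy v hyv b hb
      simp only [Finset.coe_univ, Set.mem_univ, Set.iUnion_true, Set.mem_iUnion, SetLike.mem_coe]
      refine ⟨x, ?_⟩
      rw [mem_center_iff]
      rcases eq_or_ne (b : F) 0 with h0 | h0
      · rw [show algebraMap (BRing (K := K) y) F b = (b : F) from rfl, h0, map_zero]
        exact zero_lt_one
      · rw [show algebraMap (BRing (K := K) y) F b = (b : F) from rfl,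
          Place.adicValuation_eq_exp_neg_ord _ h0, ← exp_zero, exp_lt_exp]
        obtain ⟨m, hm, hmf⟩ := hmult x
        have h1 : W (Ψ x b) < 1 := hx
        rw [hWap _ (hne x _ h0), ← exp_zero, exp_lt_exp, hmf _ h0] at h1
        have h2 : 0 < (pl x).ord (b : F) := (mul_pos_iff_of_pos_left hm).mp (by omega)
        omega
    rw [Ideal.subset_union_prime x0 x0 (fun i _ _ _ => center_isPrime _ _ _)] at hcover
    obtain ⟨x, -, hx⟩ := hcover
    exact ⟨x, (place_eq_of_center_le _ _ _ _ _ hx).symm⟩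
  have hfin : {v : Place K F | 0 < v.ord y}.Finite := by
    refine (Set.finite_range pl).subset fun v hv => ?_
    exact hsurj v hv
  refine ⟨hfin, ?_⟩
  have hfin' : Finite {v : Place K F // 0 < v.ord y} := hfin
  have := Fintype.ofFinite {v : Place K F // 0 < v.ord y}
  have := Fintype.ofFinite (MulAction.orbitRel.Quotient (Subgroup.zpowers π) X)
  -- the map from orbits to places
  have hplz : ∀ (g : Subgroup.zpowers π) (x : X), pl (g • x) = pl x := by
    rintro ⟨g, hg⟩ x
    obtain ⟨n, rfl⟩ := hg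
    show pl ((π ^ n) x) = pl x
    induction n using Int.induction_on with
    | zero => simp
    | succ n ih => rw [add_comm, zpow_one_add, Equiv.Perm.mul_apply, hplπ, ih]
    | pred n ih =>
      rw [← hplπ, ← Equiv.Perm.mul_apply, ← zpow_one_add]
      rw [show (1 : ℤ) + (-(n : ℤ) - 1) = -(n : ℤ) by ring]
      exact ih
  let Φ : MulAction.orbitRel.Quotient (Subgroup.zpowers π) X → {v : Place K F // 0 < v.ord y} :=
    Quotient.lift (fun x => ⟨pl x, hplpos x⟩) (by
      intro a b hab
      obtain ⟨g, hg⟩ := hab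
      apply Subtype.ext
      show pl a = pl b
      rw [← hg]
      exact hplz g b)
  have hΦ : Function.Surjective Φ := by
    rintro ⟨v, hv⟩
    obtain ⟨x, hx⟩ := hsurj v hv
    exact ⟨Quotient.mk'' x, Subtype.ext hx⟩
  have horb : ∀ q : MulAction.orbitRel.Quotient (Subgroup.zpowers π) X,
      0 < (Nat.card q.orbit : ℤ) ∧ (Φ q).1.ord y ≤ (Nat.card q.orbit : ℤ) := by
    intro q
    induction q using Quotient.inductionOn' with
    | h x =>
      rw [MulAction.orbitRel.Quotient.orbit_mk]
      have hΦx : (Φ (Quotient.mk'' x)).1 = pl x := rfl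
      rw [hΦx]
      obtain ⟨m, hm, hmf⟩ := hmult x
      set r := Nat.card (MulAction.orbit (Subgroup.zpowers π) x) with hr
      have hr0 : 0 < r := Nat.card_pos_iff.mpr
        ⟨⟨⟨x, MulAction.mem_orbit_self x⟩⟩, inferInstance⟩
      have := Fintype.ofFinite (MulAction.orbit (Subgroup.zpowers π) x)
      have hper : (π ^ r) x = x := by
        have h1 := MulAction.minimalPeriod_eq_card π x
        rw [← Nat.card_eq_fintype_card] at h1
        have h2 : π ^ r • x = x := by
          rw [MulAction.pow_smul_eq_iff_minimalPeriod_dvd, h1]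
        exact h2
      obtain ⟨ϖ, hϖ⟩ := IsDiscreteValuationRing.exists_irreducible (pl x).toValuationSubring
      have hϖ0 : (ϖ : F) ≠ 0 := by
        simpa [ne_eq, ZeroMemClass.coe_eq_zero] using hϖ.ne_zero
      have h3 := hdvd x r hr0 hper (ϖ : F) hϖ0
      rw [hmf y hy0, hmf _ hϖ0, (pl x).ord_coe_irreducible hϖ, mul_one, mul_comm (r : ℤ)] at h3
      have h4 : (pl x).ord y ∣ (r : ℤ) := (mul_dvd_mul_iff_left hm.ne').mp h3
      exact ⟨by exact_mod_cast hr0, Int.le_of_dvd (by exact_mod_cast hr0) h4⟩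
  have hcount := count_bijective Φ hΦ (fun v => v.1.ord y)
    (fun q => (Nat.card q.orbit : ℤ)) (fun q => (horb q).1) (fun q => (horb q).2) (by
      have h1 : ∑ q : MulAction.orbitRel.Quotient (Subgroup.zpowers π) X,
          (Nat.card q.orbit : ℤ) = Nat.card X := by
        rw [Nat.card_congr (MulAction.selfEquivSigmaOrbits' (Subgroup.zpowers π) X),
          Nat.card_sigma]
        push_cast
        rfl
      have h2 : ∑ v : {v : Place K F // 0 < v.ord y}, v.1.ord y = ∑ v ∈ hfin.toFinset, v.ord y := by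
        refine (Finset.sum_subtype (hfin.toFinset) (p := fun v => 0 < v.ord y) ?_
          (fun v => v.ord y)).symm
        intro v
        simp
      rw [h1, h2, hsum hfin, hcard])
  rw [Nat.card_eq_fintype_card, Nat.card_eq_fintype_card]
  exact (Fintype.card_of_bijective hcount.1).symm

/-- Number of places over `y = 0` = number of orbits (any characteristic). -/
theorem card_places [IsAlgClosed K] [FF.IsFF K F] {L : Type*} [Field L]
    (y : F) (hy : Transcendental K y)
    {X : Type*} [Finite X] (Ψ : X → (F →+* L)) (hinj : Function.Injective Ψ)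
    (hcard : Nat.card X = Module.finrank K⟮y⟯ F)
    (hΨK : ∀ x x' (c : K), Ψ x (algebraMap K F c) = Ψ x' (algebraMap K F c))
    (hΨy : ∀ x x', Ψ x y = Ψ x' y)
    (o : L → ℤ) (o_mul : ∀ f g, f ≠ 0 → g ≠ 0 → o (f * g) = o f + o g)
    (o_add : ∀ f g, f ≠ 0 → g ≠ 0 → f + g ≠ 0 → min (o f) (o g) ≤ o (f + g))
    (oK : ∀ x (c : K), c ≠ 0 → o (Ψ x (algebraMap K F c)) = 0)
    (oy : ∀ x, 0 < o (Ψ x y)) (π : Equiv.Perm X)
    (hπ : ∀ x f, f ≠ 0 → o (Ψ (π x) f) = o (Ψ x f))
    (hdvd : ∀ x (r : ℕ), 0 < r → (π ^ r) x = x → ∀ f, f ≠ 0 → o (Ψ x y) ∣ r * o (Ψ x f)) :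
    Nat.card {v : Place K F // 0 < v.ord y}
      = Nat.card (MulAction.orbitRel.Quotient (Subgroup.zpowers π) X) := by
  have := FF.IsFF.finite_adjoin y hy
  refine (card_places_of_sum y hy (fun h => ?_) Ψ hinj hcard hΨK hΨy o o_mul o_add oK oy π hπ
    hdvd).2
  have := FF.sum_ord_eq_finrank (K := K) hy
  rw [← this]

/-- Version with values in Laurent series. -/
theorem card_places_laurent [IsAlgClosed K] [FF.IsFF K F] {N : ℕ} (hN : 0 < N)
    (y : F) (hy : Transcendental K y) {X : Type*} [Finite X]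
    (Ψ : X → (F →+* LaurentSeries K)) (hinj : Function.Injective Ψ)
    (hcard : Nat.card X = Module.finrank K⟮y⟯ F)
    (hK : ∀ x (c : K), Ψ x (algebraMap K F c) = algebraMap K (LaurentSeries K) c)
    (z : LaurentSeries K) (hyz : ∀ x, Ψ x y = z) (hz : z.order = -(N : ℤ))
    (π : Equiv.Perm X) (hπ : ∀ x f, (Ψ (π x) f).order = (Ψ x f).order)
    (hdvd : ∀ x (r : ℕ), (π ^ r) x = x → ∀ f, f ≠ 0 → (N : ℤ) ∣ r * (Ψ x f).order) :
    Nat.card {v : Place K F // 0 < v.ord y⁻¹}
      = Nat.card (MulAction.orbitRel.Quotient (Subgroup.zpowers π) X) := by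
  have htr : Transcendental K y⁻¹ := FF.transcendental_inv hy
  have hz0 : z ≠ 0 := by
    rintro rfl
    rw [HahnSeries.order_zero] at hz
    omega
  have hzinv : z⁻¹.order = (N : ℤ) := by
    have h1 := HahnSeries.order_mul hz0 (inv_ne_zero hz0)
    rw [mul_inv_cancel₀ hz0, HahnSeries.order_one, hz] at h1
    omega
  have hord : ∀ x, (Ψ x y⁻¹).order = N := fun x => by
    rw [map_inv₀, hyz, hzinv]
  refine card_places y⁻¹ htr Ψ hinj (by rw [hcard, FF.isFF_nontrivial_adjoin_inv])
    (fun x x' c => by rw [hK, hK])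
    (fun x x' => by rw [map_inv₀, map_inv₀, hyz, hyz])
    HahnSeries.order
    (fun f g hf hg => HahnSeries.order_mul hf hg)
    (fun f g hf hg hfg => HahnSeries.min_order_le_order_add hfg)
    (fun x c hc => ?_)
    (fun x => by rw [hord]; exact_mod_cast hN)
    π (fun x f _ => hπ x f)
    (fun x r hr h f hf => by rw [hord]; exact hdvd x r h f hf)
  rw [hK]
  have h1 : algebraMap K (LaurentSeries K) c = HahnSeries.single 0 c :=
    ModularCurve.algebraMap_laurentSeries_eq_single K c
  rw [h1, HahnSeries.order_single hc]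

end

end Fermat.Agent.GoodRed
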