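import Fermat.Agent.GoodRed.Expansion
import Fermat.Agent.GoodRed.Embed
import Fermat.Agent.GoodRed.OrbSep
import Fermat.Agent.GaussVal.Modular
import Fermat.Agent.S28_Residual
import Fermat.Agent.P1Count.Cusps

/-!
# Cusps of `X₀(N)` in characteristic `ℓ`

The expansions `embInf x : F_N →+* K((q_N))` reduce to embeddings of the function field of the
special fibre; hence the number of places over `j = ∞` is the number of `T`-orbits on
`SL(2,ℤ)/Γ₀(N)`.
-/

set_option autoImplicit false

noncomputable section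

open ModularCurve HahnSeries Module Polynomial
open Fermat.Agent.X0Emb Fermat.Agent.GaussVal Fermat.Agent.Deuring
open scoped MatrixGroups IntermediateField Fermat.Agent.GaussVal

namespace Fermat.Agent.GoodRed

section RedLemmas

variable {K : Type*} [Field K] {A : ValuationSubring K}

theorem red_incl (Y : LaurentSeries A) :
    Red (gaussSubring A) (gaussRed A) (incl A Y) (redS A Y) :=
  ⟨incl_mem Y, gaussRed_incl Y _⟩

theorem red_algebraMap (a : A) :
    Red (gaussSubring A) (gaussRed A) (algebraMap K (LaurentSeries K) a)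
      (algebraMap (IsLocalRing.ResidueField A) _ (IsLocalRing.residue A a)) :=
  ⟨algebraMap_mem_gaussSubring a.2, gaussRed_algebraMap a.2⟩

theorem red_qExpand (e : ℕ) [NeZero e] {z : LaurentSeries K}
    {w : LaurentSeries (IsLocalRing.ResidueField A)}
    (h : Red (gaussSubring A) (gaussRed A) z w) :
    Red (gaussSubring A) (gaussRed A) (qExpand K e z) (qExpand _ e w) := by
  obtain ⟨hz, rfl⟩ := h
  obtain ⟨Y₁, Y₂, hY, hy⟩ := mem_gaussSubring.mp hz
  have hY' : redS A (qExpand A e Y₂) ≠ 0 := by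
    rw [ModularCurve.coeffMap_qExpand]
    intro h0
    exact hY (qExpand_injective e (by rw [h0, map_zero]))
  have hy' : qExpand K e z * incl A (qExpand A e Y₂) = incl A (qExpand A e Y₁) := by
    rw [ModularCurve.coeffMap_qExpand, ModularCurve.coeffMap_qExpand, ← map_mul, hy]
  have hmem : qExpand K e z ∈ gaussSubring A := mem_gaussSubring.mpr ⟨_, _, hY', hy'⟩
  refine ⟨hmem, ?_⟩
  rw [gaussRed_eq (y := ⟨_, hmem⟩) hY' hy', gaussRed_eq (y := ⟨z, hz⟩) hY hy, map_div₀,
    ModularCurve.coeffMap_qExpand, ModularCurve.coeffMap_qExpand]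

theorem red_twist (u : Aˣ) {z : LaurentSeries K}
    {w : LaurentSeries (IsLocalRing.ResidueField A)}
    (h : Red (gaussSubring A) (gaussRed A) z w) :
    Red (gaussSubring A) (gaussRed A) (twist (Units.map (A.subtype : A →* K) u) z)
      (twist (Units.map (IsLocalRing.residue A : A →* IsLocalRing.ResidueField A) u) w) := by
  obtain ⟨hz, rfl⟩ := h
  obtain ⟨Y₁, Y₂, hY, hy⟩ := mem_gaussSubring.mp hz
  have hY' : redS A (twist u Y₂) ≠ 0 := by
    rw [twist_coeffMap]
    intro h0
    exact hY (twist_coe_injective _ (by rw [map_zero]; exact h0))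
  have hy' : twist (Units.map (A.subtype : A →* K) u) z * incl A (twist u Y₂) =
      incl A (twist u Y₁) := by
    rw [twist_coeffMap, twist_coeffMap, ← map_mul, hy]
  have hmem : twist (Units.map (A.subtype : A →* K) u) z ∈ gaussSubring A :=
    mem_gaussSubring.mpr ⟨_, _, hY', hy'⟩
  refine ⟨hmem, ?_⟩
  rw [gaussRed_eq (y := ⟨_, hmem⟩) hY' hy', gaussRed_eq (y := ⟨z, hz⟩) hY hy, map_div₀,
    twist_coeffMap, twist_coeffMap]

theorem mem_or_red_inv [CharZero K] [Algebra.IsAlgebraic ℚ K] {ℓ : ℕ} (hℓ : ℓ.Prime)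
    (hA : A.LiesOverPrime ℓ) {y : LaurentSeries K} (hy : y ∈ intField K) :
    y ∈ gaussSubring A ∨ Red (gaussSubring A) (gaussRed A) y⁻¹ 0 := by
  by_cases h : y ∈ gaussSubring A
  · exact Or.inl h
  right
  have h1 := (mem_or_inv_mem hℓ hA hy).resolve_left h
  refine ⟨h1, ?_⟩
  by_contra h2
  apply h
  have := inv_mem_of_gaussRed_ne_zero h2
  rwa [inv_inv] at this

/-- roots of unity are units of `A`. -/
theorem exists_unit_of_pow_eq_one {m : ℕ} (hm : m ≠ 0) {z : Kˣ} (hz : z ^ m = 1) :
    ∃ u : Aˣ, Units.map (A.subtype : A →* K) u = z ∧ u ^ m = 1 := by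
  have hv : A.valuation (z : K) = 1 := by
    have h1 : A.valuation (z : K) ^ m = 1 := by
      rw [← map_pow, ← Units.val_pow_eq_pow_val, hz, Units.val_one, map_one]
    exact (pow_eq_one_iff_of_nonneg zero_le hm).mp h1
  have hmem : (z : K) ∈ A := (ValuationSubring.valuation_le_one_iff _ _).mp hv.le
  have hmem' : ((z⁻¹ : Kˣ) : K) ∈ A := by
    rw [← ValuationSubring.valuation_le_one_iff, Units.val_inv_eq_inv_val, map_inv₀, hv, inv_one]
  let u : Aˣ := ⟨⟨z, hmem⟩, ⟨_, hmem'⟩, Subtype.ext (by simp), Subtype.ext (by simp)⟩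
  refine ⟨u, Units.ext rfl, Units.ext (Subtype.ext ?_)⟩
  have := congrArg (fun w : Kˣ => (w : K)) hz
  simpa [u] using this

theorem isPrimitiveRoot_residue {N : ℕ} [NeZero N]
    (hN : (N : IsLocalRing.ResidueField A) ≠ 0) {u : Aˣ}
    (hu : IsPrimitiveRoot (Units.map (A.subtype : A →* K) u) N) :
    IsPrimitiveRoot (Units.map (IsLocalRing.residue A : A →* IsLocalRing.ResidueField A) u) N := by
  obtain ⟨n, rfl⟩ : ∃ n, N = n + 1 := Nat.exists_eq_succ_of_ne_zero (NeZero.ne N)
  have h1 : IsPrimitiveRoot ((u : A) : K) (n + 1) := IsPrimitiveRoot.coe_units_iff.mpr hu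
  have h2 : IsPrimitiveRoot (u : A) (n + 1) :=
    IsPrimitiveRoot.of_map_of_injective (f := A.subtype) h1 Subtype.val_injective
  have h3 := h2.prod_one_sub_pow_eq_order
  have h4 := congrArg (IsLocalRing.residue A) h3
  rw [map_prod] at h4
  have h5 : ∏ x ∈ Finset.range n, IsLocalRing.residue A (1 - (u : A) ^ (x + 1)) ≠ 0 := by
    rw [h4]
    simpa using hN
  rw [Finset.prod_ne_zero_iff] at h5
  apply IsPrimitiveRoot.coe_units_iff.mp
  show IsPrimitiveRoot (IsLocalRing.residue A (u : A)) (n + 1)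
  refine IsPrimitiveRoot.mk_of_lt _ (Nat.succ_pos n) ?_ ?_
  · rw [← map_pow, h2.pow_eq_one, map_one]
  · intro l hl hl' h0
    have := h5 (l - 1) (by rw [Finset.mem_range]; omega)
    apply this
    rw [Nat.sub_add_cancel hl, map_sub, map_one, map_pow, h0, sub_self]

end RedLemmas

section Main

instance isAlgebraic_KK : Algebra.IsAlgebraic ℚ KK := AlgebraicClosure.isAlgebraic ℚ

theorem FF_eq_full (N : ℕ) : FF N = modularFunctionFieldFullC KK N := FF_eq N

variable {ℓ N : ℕ} {A : ValuationSubring KK}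

theorem jEl_eq_jF (hE : FF N = modularFunctionFieldFullC KK N) : jEl KK (FF N) N hE = jF N :=
  Subtype.ext (coe_jF N).symm

/-- `j` in the function field of the special fibre -/
abbrev jB (A : ValuationSubring KK) (N : ℕ) :
    modularFunctionFieldFullC (IsLocalRing.ResidueField A) N :=
  jEl (IsLocalRing.ResidueField A) _ N rfl

variable (hℓ : ℓ.Prime) (hA : A.LiesOverPrime ℓ)
  (hE : FF N = modularFunctionFieldFullC KK N)
  [FiniteDimensional KK⟮jEl KK (FF N) N hE⟯ (FF N)]
  (hdeg : finrank KK⟮jEl KK (FF N) N hE⟯ (FF N) ≤ finrank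
    (IsLocalRing.ResidueField A)⟮jB A N⟯
        (modularFunctionFieldFullC (IsLocalRing.ResidueField A) N))

/-- The concrete reduction data. -/
abbrev GD : GaussData KK (FF N) (IsLocalRing.ResidueField A)
    (modularFunctionFieldFullC (IsLocalRing.ResidueField A) N) :=
  modGauss hℓ hA (FF N) N hE hdeg

theorem red_coe {f : FF N} (hf : f ∈ (GD hℓ hA hE hdeg).O) :
    Red (gaussSubring A) (gaussRed A) (f : LaurentSeries KK)
      (((GD hℓ hA hE hdeg).ρ ⟨f, hf⟩ : modularFunctionFieldFullC (IsLocalRing.ResidueField A) N) :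
        LaurentSeries (IsLocalRing.ResidueField A)) :=
  ⟨hf, (coe_modGauss_ρ (hE := hE) (hdeg := hdeg) ⟨f, hf⟩).symm⟩

omit [FiniteDimensional KK⟮jEl KK (FF N) N hE⟯ (FF N)] in
theorem red_jqModC : Red (gaussSubring A) (gaussRed A) (jqModC KK)
    (jqModC (IsLocalRing.ResidueField A)) := by
  have := red_incl (A := A) (jqModC A)
  rwa [show incl A (jqModC A) = jqModC KK from map_jqModC _,
    show redS A (jqModC A) = jqModC (IsLocalRing.ResidueField A) from map_jqModC _] at this

theorem jEl_mem : jEl KK (FF N) N hE ∈ (GD hℓ hA hE hdeg).O := by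
  rw [mem_modGauss_O]
  exact (red_jqModC (A := A)).choose

theorem ρ_jEl : (GD hℓ hA hE hdeg).ρ ⟨jEl KK (FF N) N hE, jEl_mem hℓ hA hE hdeg⟩ = jB A N := by
  apply Subtype.ext
  exact (red_coe hℓ hA hE hdeg (jEl_mem hℓ hA hE hdeg)).unique red_jqModC

variable [NeZero N]

theorem exists_embRed (x : XX N) :
    ∃ Ψ' : modularFunctionFieldFullC (IsLocalRing.ResidueField A) N →+*
        LaurentSeries (IsLocalRing.ResidueField A),
      ∀ (f : FF N) (hf : f ∈ (GD hℓ hA hE hdeg).O),
        Red (gaussSubring A) (gaussRed A) (embInf x f) (Ψ' ((GD hℓ hA hE hdeg).ρ ⟨f, hf⟩)) := by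
  refine exists_reduction' (GD hℓ hA hE hdeg) (jEl_mem hℓ hA hE hdeg)
    (algebraMap (IsLocalRing.ResidueField A) (LaurentSeries (IsLocalRing.ResidueField A)))
    (embInf x) (yL := qExpand _ N (jqModC (IsLocalRing.ResidueField A))) ?_ ?_ ?_ ?_ (jB A N)
    (ρ_jEl hℓ hA hE hdeg) (transcendental_jEl _ _ N rfl) hdeg
  · intro a
    rw [embInf_algebraMap]
    exact red_algebraMap a
  · rw [jEl_eq_jF, embInf_jF]
    exact red_qExpand N red_jqModC
  · have h1 : Transcendental (IsLocalRing.ResidueField A)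
        (qExpand _ N (jqModC (IsLocalRing.ResidueField A))) := by
      apply S28aux.transcendental_of_order
      rw [order_qExpand, order_jqModC]
      have : (0 : ℤ) < N := by exact_mod_cast Nat.pos_of_ne_zero (NeZero.ne N)
      linarith
    intro q hq h0
    exact hq ((transcendental_iff.mp h1) q h0)
  · intro f
    exact mem_or_red_inv hℓ hA (embInf_mem_intField x f)

end Main

end Fermat.Agent.GoodRed
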