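import Fermat.Agent.X0Emb.Emb
import Fermat.Agent.GaussVal.Field
import Fermat.Prelude.Def_ModularCurve_X0ModL

/-!
# The expansions of `F_N` at all cusps have bounded content

For `x : SL(2,ℤ)/Γ₀(N)` the expansion `embInf x : F_N →+* K((q_N))` takes values in
`intField K` (fractions of `K`-combinations of integral series).
-/

set_option autoImplicit false

noncomputable section

open ModularCurve HahnSeries
open Fermat.Agent.X0Emb Fermat.Agent.GaussVal
open scoped MatrixGroups

namespace Fermat.Agent.GoodRed

section IntAlg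

variable {K : Type*} [Field K]

theorem qExpand_algebraMap (e : ℕ) [NeZero e] (c : K) :
    qExpand K e (algebraMap K (LaurentSeries K) c) = algebraMap K (LaurentSeries K) c := by
  rw [algebraMap_laurentSeries_eq_single, qExpand_single, mul_zero]

theorem qExpand_mem_intAlg (e : ℕ) [NeZero e] {y : LaurentSeries K} (hy : y ∈ intAlg K) :
    qExpand K e y ∈ intAlg K := by
  induction hy using Algebra.adjoin_induction with
  | mem x hx =>
    obtain ⟨G, rfl⟩ := hx
    rw [← ModularCurve.coeffMap_qExpand]
    exact Algebra.subset_adjoin ⟨_, rfl⟩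
  | algebraMap c =>
    rw [qExpand_algebraMap]
    exact Subalgebra.algebraMap_mem _ _
  | add x y _ _ hx hy => rw [map_add]; exact add_mem hx hy
  | mul x y _ _ hx hy => rw [map_mul]; exact mul_mem hx hy

/-- the part of a series with exponents in a residue class. -/
def restr (m : ℕ) (i : ZMod m) (G : LaurentSeries ℤ) : LaurentSeries ℤ where
  coeff n := if (n : ZMod m) = i then G.coeff n else 0
  isPWO_support' := G.isPWO_support'.mono fun n hn => by
    simp only [Function.mem_support, ne_eq, ite_eq_right_iff, Classical.not_imp] at hn ⊢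
    exact hn.2

theorem restr_coeff (m : ℕ) (i : ZMod m) (G : LaurentSeries ℤ) (n : ℤ) :
    (restr m i G).coeff n = if (n : ZMod m) = i then G.coeff n else 0 := rfl

theorem twist_mem_intAlg {m : ℕ} [NeZero m] {z : Kˣ} (hz : z ^ m = 1) (G : LaurentSeries ℤ) :
    twist z (coeffMap (Int.castRingHom K) G) ∈ intAlg K := by
  have h : twist z (coeffMap (Int.castRingHom K) G) =
      ∑ i : ZMod m, algebraMap K (LaurentSeries K) ((z ^ i.val : Kˣ) : K) *
        coeffMap (Int.castRingHom K) (restr m i G) := by
    ext n
    rw [twist_coeff, HahnSeries.coeff_sum, Finset.sum_eq_single (n : ZMod m)]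
    · rw [GaussVal.coeff_algebraMap_mul, coeffMap_coeff, coeffMap_coeff, restr_coeff, if_pos rfl]
      congr 2
      have h1 : (((n : ZMod m).val : ℕ) : ℤ) = n % m := ZMod.val_intCast n
      rw [← zpow_natCast, h1]
      conv_lhs => rw [← Int.emod_add_mul_ediv n m]
      rw [zpow_add, zpow_mul, zpow_natCast, hz, one_zpow, mul_one]
    · intro i _ hi
      rw [GaussVal.coeff_algebraMap_mul, coeffMap_coeff, restr_coeff, if_neg (Ne.symm hi), map_zero,
        mul_zero]
    · intro h
      exact absurd (Finset.mem_univ _) h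
  rw [h]
  exact sum_mem fun i _ => mul_mem (Subalgebra.algebraMap_mem _ _)
    (Algebra.subset_adjoin ⟨_, rfl⟩)

theorem intAlg_le_intField {y : LaurentSeries K} (hy : y ∈ intAlg K) : y ∈ intField K :=
  IntermediateField.algebra_adjoin_le_adjoin _ _ hy

end IntAlg

section Emb

variable {N : ℕ} [NeZero N]

/-- Explicit form of the expansions of `j(dτ)`. -/
theorem embInfA_jdA (x : XX N) (d : ℕ) [NeZero d] (hd : d ∣ N) :
    ∃ (a d' : ℕ) (_ : NeZero a) (_ : NeZero d') (_ : NeZero (a * (N / d'))) (z : KKˣ),
      a * d' = d ∧ z ^ d' = 1 ∧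
      embInfA x (jdA N d hd) = qExpand KK (a * (N / d')) (twist z (jqModC KK)) := by
  induction x using QuotientGroup.induction_on with
  | H g =>
    obtain ⟨a, b, d', ha, hd', h1, h2, h3⟩ := smul_jAff_eq d g
    obtain ⟨z, hz⟩ := exists_zetaK b d'
    have hd'N : d' ∣ N := (Dvd.intro_left a h1).trans hd
    have hN : N / d' ≠ 0 := (Nat.div_pos (Nat.le_of_dvd (Nat.pos_of_ne_zero (NeZero.ne N)) hd'N)
      (Nat.pos_of_ne_zero (NeZero.ne d'))).ne'
    have hne : NeZero (a * (N / d')) := ⟨Nat.mul_ne_zero (NeZero.ne a) hN⟩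
    refine ⟨a, d', ha, hd', hne, z, h1, ?_, ?_⟩
    · have h4 : zetaU b d' ^ d' = 1 := by
        ext
        rw [zetaU, Units.val_pow_eq_pow_val, Units.val_mk0, ← Complex.exp_nat_mul]
        have hd : (d' : ℂ) ≠ 0 := by exact_mod_cast NeZero.ne d'
        rw [show (d' : ℂ) * (2 * Real.pi * Complex.I * b / d') =
          (b : ℂ) * (2 * Real.pi * Complex.I) by field_simp]
        exact Complex.exp_nat_mul_two_pi_mul_I b
      rw [← hz, ← map_pow] at h4
      have h5 : (iota ((z ^ d' : KKˣ) : KK)) = 1 := by
        have := congrArg (fun u : ℂˣ => (u : ℂ)) h4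
        simpa using this
      ext
      apply iota_injective
      rw [h5]
      simp
    · apply lexp_K_unique (lexp_embInfA _ _)
      rw [embA_mk, ev_jdA, h3]
      exact lexp_jAff_K a b d' (a * (N / d')) N (by
        rw [mul_assoc, Nat.div_mul_cancel hd'N]) z hz

theorem embInfA_mem_intAlg (x : XX N) (f : AA N) : embInfA x f ∈ intAlg KK := by
  induction f using AA_induction with
  | hj d hd =>
    obtain ⟨a, d', ha, hd', hne, z, h1, hz, h⟩ := embInfA_jdA x d hd
    rw [h]
    apply qExpand_mem_intAlg
    rw [← map_jqModC (Int.castRingHom KK)]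
    exact twist_mem_intAlg hz _
  | hc c =>
    have : embInfA x (algebraMap KK (AA N) c) = algebraMap KK _ c := by
      rw [← embInf_coe]
      exact embInf_algebraMap x c
    rw [this]
    exact Subalgebra.algebraMap_mem _ _
  | hadd f g hf hg => rw [map_add]; exact add_mem hf hg
  | hmul f g hf hg => rw [map_mul]; exact mul_mem hf hg

theorem embInf_mem_intField (x : XX N) (f : FF N) : embInf x f ∈ intField KK := by
  obtain ⟨a, b, rfl⟩ := exists_div N f
  rw [map_div₀, embInf_coe, embInf_coe]
  exact div_mem (intAlg_le_intField (embInfA_mem_intAlg x a))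
    (intAlg_le_intField (embInfA_mem_intAlg x b))

/-- `embInf x (j(Nτ))` determines `x`. -/
theorem eq_of_embInfA_jN {x y : XX N}
    (h : embInfA x (jdA N N dvd_rfl) = embInfA y (jdA N N dvd_rfl)) : x = y := by
  have h0 : embA x (jdA N N dvd_rfl) = embA y (jdA N N dvd_rfl) := by
    have h1 := lexp_embInfA x (jdA N N dvd_rfl)
    rw [h] at h1
    exact lexp_hol_unique h1 (lexp_embInfA y (jdA N N dvd_rfl))
  induction x using QuotientGroup.induction_on with
  | H g =>
    induction y using QuotientGroup.induction_on with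
    | H g' =>
      rw [embA_mk, embA_mk, ev_jdA] at h0
      rw [QuotientGroup.eq]
      apply mem_Gamma0_of_smul_jAff
      rw [mul_smul, ← h0, inv_smul_smul]

end Emb

end Fermat.Agent.GoodRed
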