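import Fermat.Agent.Deuring.Red

/-!
# Genus zero function fields are rational (helper37)
-/

set_option autoImplicit false

open AlgebraicCurve WithZero Module
open scoped IntermediateField
open Fermat.Agent.RR Fermat.Agent.FF Fermat.Agent.Deuring

namespace Fermat.Agent.GoodRed

variable {K F : Type*} [Field K] [Field F] [Algebra K F] [IsAlgClosed K] [FF.IsFF K F]

attribute [local instance] Deuring.nonempty_place Deuring.finiteResidue

/-- (G0) A function field of genus `0` over an algebraically closed field is rational. -/
theorem exists_adjoin_eq_top_of_genus_zero (hg : genusFF K F = 0) :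
    ∃ T : F, Transcendental K T ∧ K⟮T⟯ = ⊤ := by
  classical
  obtain ⟨P⟩ := Deuring.nonempty_place (K := K) (F := F)
  have h1 := Deuring.ell_large (K := K) (F := F) (D := Finsupp.single P 1)
    (by rw [Deuring.degree_single_one, hg]; norm_num)
  rw [Deuring.degree_single_one, hg] at h1
  have h0 : ell (0 : Divisor K F) = 1 := ell_zero
  have h2 : ¬ riemannRochSpace (Finsupp.single P 1 : Divisor K F) ≤ riemannRochSpace 0 := by
    intro hle
    have hfin : FiniteDimensional K (riemannRochSpace (0 : Divisor K F)) := inferInstance
    have := Submodule.finrank_mono hle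
    change ell (Finsupp.single P 1) ≤ ell 0 at this
    omega
  obtain ⟨T, hT, hT'⟩ := SetLike.not_le_iff_exists.mp h2
  have hT0 : T ≠ 0 := by rintro rfl; exact hT' (zero_mem _)
  rw [mem_L_iff hT0] at hT hT'
  push Not at hT'
  obtain ⟨u, hu⟩ := hT'
  rw [Finsupp.zero_apply, neg_zero] at hu
  have huP : u = P := by
    by_contra hne
    have := hT u
    rw [Finsupp.single_eq_of_ne hne] at this
    omega
  subst huP
  have htr : Transcendental K T := transcendental_of_ord_ne_zero u (by omega)
  refine ⟨T, htr, ?_⟩
  have hpole : (pole T : Divisor K F) = Finsupp.single u 1 := by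
    ext v
    rw [pole_apply, Finsupp.single_apply]
    have h3 := hT v
    rw [Finsupp.single_apply] at h3
    split_ifs at h3 ⊢ with h
    · subst h
      omega
    · omega
  have h4 := degree_pole htr
  rw [hpole, Deuring.degree_single_one] at h4
  have h5 : finrank K⟮T⟯ F = 1 := by exact_mod_cast h4.symm
  exact IntermediateField.finrank_eq_one_iff_eq_top.mp h5

end Fermat.Agent.GoodRed
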