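import Fermat.Agent.GoodRed.Embed
import Mathlib.FieldTheory.IsAlgClosed.Basic

/-!
# Reduction of a rational function field
-/

set_option autoImplicit false

open Module Polynomial
open scoped IntermediateField
open Fermat.Agent.Deuring

noncomputable section

namespace Fermat.Agent.GoodRed

variable {K F k F' : Type*} [Field K] [Field F] [Algebra K F] [Field k] [Field F'] [Algebra k F']
  (G : GaussData K F k F')

theorem mem_range_of_isAlgebraic [IsAlgClosed k] {w : F'} (hw : IsAlgebraic k w) :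
    ∃ a : k, algebraMap k F' a = w := by
  have h1 : IsIntegral k w := hw.isIntegral
  have h2 := IsAlgClosed.degree_eq_one_of_irreducible k (minpoly.irreducible h1)
  have h3 : (minpoly k w).natDegree = 1 := natDegree_eq_of_degree_eq_some h2
  have h4 := (minpoly.natDegree_eq_one_iff (A := k) (x := w)).mp h3
  simpa using h4

/-- In the residue field, `ρ` maps `O ∩ K(y)` into `k(ρ y)`. -/
theorem ρ_mem_adjoin {y : F} (hyO : y ∈ G.O) (hytr : Transcendental k (G.ρ ⟨y, hyO⟩))
    {f : F} (hf : f ∈ G.O) (hfy : f ∈ K⟮y⟯) : G.ρ ⟨f, hf⟩ ∈ k⟮G.ρ ⟨y, hyO⟩⟯ := by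
  obtain ⟨q, p, hq, hp⟩ := exists_common_denom y (fun _ : Unit => (⟨f, hfy⟩ : K⟮y⟯))
  have hq0 : q ≠ 0 := by rintro rfl; exact hq (map_zero _)
  obtain ⟨c, P, hc, hP, j, hj⟩ := exists_scale_poly G (fun o : Option Unit => o.elim q p)
    ⟨none, hq0⟩
  have hPn : (P none).map G.A.subtype = C c * q := hP none
  have hPs : (P (some ())).map G.A.subtype = C c * p () := hP (some ())
  have hmul : ev G y (P none) * f = ev G y (P (some ())) := by
    rw [ev_eq, ev_eq, hPn, hPs, map_mul, map_mul, mul_assoc]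
    congr 1
    exact hp ()
  have h1 : aeval (G.ρ ⟨y, hyO⟩) ((P none).map G.res) * G.ρ ⟨f, hf⟩ =
      aeval (G.ρ ⟨y, hyO⟩) ((P (some ())).map G.res) := by
    rw [← ρ_ev G hyO _ (ev_mem G hyO _), ← ρ_ev G hyO _ (ev_mem G hyO _), ← map_mul]
    congr 1
    exact Subtype.ext hmul
  have hPnone : (P none).map G.res ≠ 0 := by
    intro h0
    rw [h0, map_zero, zero_mul] at h1
    have h2 := (transcendental_iff.mp hytr) _ h1.symm
    rcases j with _ | j
    · exact hj h0
    · exact hj h2
  have h2 : aeval (G.ρ ⟨y, hyO⟩) ((P none).map G.res) ≠ 0 := fun h =>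
    hPnone ((transcendental_iff.mp hytr) _ h)
  have h3 : G.ρ ⟨f, hf⟩ = aeval (G.ρ ⟨y, hyO⟩) ((P (some ())).map G.res) /
      aeval (G.ρ ⟨y, hyO⟩) ((P none).map G.res) := by
    rw [eq_div_iff h2, ← h1, mul_comm]
  rw [h3, ← coe_adj, ← coe_adj]
  exact div_mem (adj k _ _).2 (adj k _ _).2

include G in
/-- If `F = K(T)` then the residue field is `k(T̄')`. -/
theorem exists_generator [IsAlgClosed k] (T : F) (hT : Transcendental K T) (htop : K⟮T⟯ = ⊤) :
    ∃ w : F', Transcendental k w ∧ k⟮w⟯ = ⊤ := by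
  classical
  let V : Submodule K F := Submodule.span K {1, T}
  have hfd : FiniteDimensional K V := FiniteDimensional.span_of_finite K (by simp)
  have hli : LinearIndependent K ![(1 : F), T] := by
    rw [LinearIndependent.pair_iff]
    intro a b hab
    have h1 : aeval T (C a + C b * X) = 0 := by
      simp only [map_add, aeval_C, map_mul, aeval_X]
      rw [← hab, Algebra.smul_def, Algebra.smul_def, mul_one]
    have h2 := (transcendental_iff.mp hT) _ h1
    have h3 := congrArg (fun p => p.coeff 0) h2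
    have h4 := congrArg (fun p => p.coeff 1) h2
    simp at h3 h4
    exact ⟨h3, h4⟩
  have hfin : finrank K V = 2 := by
    have h1 : V = Submodule.span K (Set.range ![(1 : F), T]) := by
      simp only [V]
      congr 1
      ext x
      simp only [Set.mem_insert_iff, Set.mem_singleton_iff, Matrix.range_cons, Matrix.range_empty,
        Set.union_empty, Set.mem_union]
    rw [h1, finrank_span_eq_card hli]
    simp
  have hfin' := G.finrank_redSpace V
  rw [hfin] at hfin'
  have hnot : ¬ (G.redSpace V ≤ Submodule.span k {1}) := by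
    intro h
    have h1 := Submodule.finrank_mono h
    have h2 : finrank k (Submodule.span k {(1 : F')}) = 1 := finrank_span_singleton one_ne_zero
    omega
  obtain ⟨w, hw, hw1⟩ := SetLike.not_le_iff_exists.mp hnot
  obtain ⟨T', hT'V, hT'O, rfl⟩ := hw
  have hwtr : Transcendental k (G.ρ ⟨T', hT'O⟩) := by
    intro halg
    obtain ⟨a, ha⟩ := mem_range_of_isAlgebraic halg
    apply hw1
    rw [← ha, Algebra.algebraMap_eq_smul_one]
    exact Submodule.smul_mem _ _ (Submodule.mem_span_singleton_self _)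
  refine ⟨G.ρ ⟨T', hT'O⟩, hwtr, ?_⟩
  obtain ⟨a, b, hab⟩ := Submodule.mem_span_pair.mp hT'V
  have hb : b ≠ 0 := by
    rintro rfl
    rw [zero_smul, add_zero] at hab
    have haA : a ∈ G.A := by
      rw [← G.mem_O_iff, Algebra.algebraMap_eq_smul_one, hab]; exact hT'O
    apply hw1
    have h1 : (⟨T', hT'O⟩ : G.O) = ⟨algebraMap K F a, (G.mem_O_iff _).mpr haA⟩ :=
      Subtype.ext (show T' = algebraMap K F a by
        rw [← hab, Algebra.algebraMap_eq_smul_one])
    rw [h1, G.ρ_algebraMap ⟨a, haA⟩, Algebra.algebraMap_eq_smul_one]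
    exact Submodule.smul_mem _ _ (Submodule.mem_span_singleton_self _)
  have hTT' : T ∈ K⟮T'⟯ := by
    have h1 : T = algebraMap K F b⁻¹ * (T' - algebraMap K F a) := by
      rw [← hab, Algebra.smul_def, mul_one, Algebra.smul_def, add_sub_cancel_left, ← mul_assoc,
        ← map_mul, inv_mul_cancel₀ hb, map_one, one_mul]
    rw [h1]
    exact mul_mem (algebraMap_mem _ _) (sub_mem (IntermediateField.mem_adjoin_simple_self K T')
      (algebraMap_mem _ _))
  have htop' : K⟮T'⟯ = ⊤ := by
    rw [eq_top_iff, ← htop, IntermediateField.adjoin_simple_le_iff]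
    exact hTT'
  rw [eq_top_iff]
  intro x _
  obtain ⟨⟨f, hf⟩, rfl⟩ := G.ρ_surj x
  exact ρ_mem_adjoin G hT'O hwtr hf (by rw [htop']; trivial)

end Fermat.Agent.GoodRed
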