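import Fermat.Agent.GoodRed.GenusAbs
import Fermat.Agent.GoodRed.Genus0
import Fermat.Agent.GoodRed.CuspCount
import Fermat.Agent.GoodRed.Rational
import Fermat.Agent.S18.Main
import Fermat.Agent.S24.Final
import Fermat.Agent.X0Emb.EmbData
import Fermat.Agent.Residue.FF

/-!
# The genus inequality for the reduction of `X₀(N)`
-/

set_option autoImplicit false

noncomputable section

open ModularCurve HahnSeries Module Polynomial AlgebraicCurve
open Fermat.Agent.X0Emb Fermat.Agent.GaussVal Fermat.Agent.Deuring Fermat.Agent.FF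
open scoped MatrixGroups IntermediateField Fermat.Agent.GaussVal

namespace Fermat.Agent.GoodRed

open S18aux (DegThm DegEq bar_eq modG)

/-- The degree theorem in characteristic zero. -/
theorem degThm_KK (N : ℕ) [NeZero N] : DegThm X0Emb.KK N := by
  have hfin : Finite (SL(2, ℤ) ⧸ CongruenceSubgroup.Gamma0 N) := finite_XX N
  have := Fintype.ofFinite (SL(2, ℤ) ⧸ CongruenceSubgroup.Gamma0 N)
  have h1 := (embData N).finrank_eq
  have h2 : (embData N).jF = jEl X0Emb.KK (modularFunctionFieldBar N) N (bar_eq N) :=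
    Subtype.ext (coe_jF N)
  rw [h2] at h1
  have h3 := S18aux.finrank_jEl (bar_eq N)
  rw [h1] at h3
  rw [P1Count.card_coset N] at h3
  exact h3.symm

theorem genusFF_bar (N : ℕ) [NeZero N] (hFF : IsFF X0Emb.KK (modularFunctionFieldBar N)) :
    (genusFF X0Emb.KK (modularFunctionFieldBar N) : ℚ) = genusFormula N := by
  have h1 := Residue.hasCanonicalDivisor_of_isFF X0Emb.KK (modularFunctionFieldBar N)
  rw [← Residue.genus_eq_genusFF_of_isFF X0Emb.KK (modularFunctionFieldBar N)]
  exact S24aux.genus_eq_of_embData N (X0Emb.embData N)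

variable {ℓ : ℕ} {A : ValuationSubring X0Emb.KK} (hℓ : ℓ.Prime) (hA : A.LiesOverPrime ℓ)

theorem card_XX (N : ℕ) [NeZero N] (h : DegThm (IsLocalRing.ResidueField A) N) :
    Nat.card (XX N) = finrank (IsLocalRing.ResidueField A)⟮jB A N⟯
        (modularFunctionFieldFullC (IsLocalRing.ResidueField A) N) := by
  rw [P1Count.card_coset N]
  exact Eq.symm h

include hℓ hA in
/-- The function field of the special fibre is separable over the `j`-line. -/
theorem isSeparable_jB (N : ℕ) [NeZero N] (hN : (N : IsLocalRing.ResidueField A) ≠ 0)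
    (h : DegThm (IsLocalRing.ResidueField A) N) (hd : DegEq A N) :
    Algebra.IsSeparable (IsLocalRing.ResidueField A)⟮jB A N⟯
        (modularFunctionFieldFullC (IsLocalRing.ResidueField A) N) := by
  have hf := hd.fin
  have hf' := hd.fin'
  have hfin : Finite (XX N) := finite_XX N
  refine isSeparable_of_ringHoms (jB A N) (embRed hℓ hA (bar_eq N) hd.2.le)
    (embRed_injective hℓ hA (bar_eq N) hd.2.le hN) (card_XX N h) ?_ ?_
  · intro x x' c
    rw [embRed_algebraMap, embRed_algebraMap]
  · intro x x'
    rw [embRed_jB, embRed_jB]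

include hℓ hA in
theorem card_places_infty' (N : ℕ) [NeZero N] (hN : (N : IsLocalRing.ResidueField A) ≠ 0)
    (h : DegThm (IsLocalRing.ResidueField A) N) (hd : DegEq A N) :
    Nat.card {v : Place (IsLocalRing.ResidueField A)
      (modularFunctionFieldFullC (IsLocalRing.ResidueField A) N) // 0 < v.ord (jB A N)⁻¹} =
      cuspCount N := by
  have hf := hd.fin
  have hf' := hd.isFF'
  exact card_places_infty hℓ hA (bar_eq N) hd.2.le hN (card_XX N h)

include hℓ hA in
/-- The function field of the special fibre of a genus zero level is rational. -/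
theorem exists_coord (M : ℕ) [NeZero M] (hMd : DegEq A M) (gM : genusFormula M = 0) :
    ∃ w : modularFunctionFieldFullC (IsLocalRing.ResidueField A) M,
      Transcendental (IsLocalRing.ResidueField A) w ∧
        (IsLocalRing.ResidueField A)⟮w⟯ = ⊤ := by
  have i1 := hMd.isFF
  have hg0 : genusFF X0Emb.KK (modularFunctionFieldBar M) = 0 := by
    have h1 := genusFF_bar M i1
    rw [gM] at h1
    exact_mod_cast h1
  obtain ⟨T, hT, htop⟩ := exists_adjoin_eq_top_of_genus_zero hg0
  exact exists_generator (modG hℓ hA hMd) T hT htop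

theorem le_genus_conc {k : Type*} [Field k] [IsAlgClosed k] (M N : ℕ) [NeZero M] [NeZero N]
    (hMN : M ∣ N) (i2 : IsFF k (modularFunctionFieldFullC k M))
    (i4 : IsFF k (modularFunctionFieldFullC k N))
    (w : modularFunctionFieldFullC k M) (hw : Transcendental k w) (hwtop : k⟮w⟯ = ⊤)
    (h3M : DegThm k M) (h3N : DegThm k N)
    (hsep : Algebra.IsSeparable k⟮jEl k _ N rfl⟯ (modularFunctionFieldFullC k N))
    (hcM : Nat.card {v : Place k (modularFunctionFieldFullC k M) //
      0 < v.ord (jEl k _ M rfl)⁻¹} = cuspCount M)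
    (hcN : Nat.card {v : Place k (modularFunctionFieldFullC k N) //
      0 < v.ord (jEl k _ N rfl)⁻¹} = cuspCount N)
    (h1 : 6 * cuspCount M = dedekindPsi M + 12)
    {g : ℕ} (h2 : 12 * (g : ℤ) - 12 = dedekindPsi N - 6 * cuspCount N) :
    g ≤ genusFF k (modularFunctionFieldFullC k N) :=
  le_genus_of_le (modularFunctionFieldFullC k M) (modularFunctionFieldFullC k N)
    (S18aux.full_le _ (NeZero.ne M) (NeZero.ne N) hMN) w hw hwtop (jEl k _ M rfl)
    (transcendental_jEl _ _ M rfl) (jEl k _ N rfl)
    ((coe_jEl k (modularFunctionFieldFullC k M) M rfl).trans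
      (coe_jEl k (modularFunctionFieldFullC k N) N rfl).symm) hsep hcM hcN h3M h3N h1 h2

include hℓ hA in
/-- **The genus inequality** at a level `N` divisible by an elliptic-point-free level `M` of genus
zero. -/
theorem genus_le (M N : ℕ) [NeZero M] [NeZero N] (hMN : M ∣ N)
    (hN : (N : IsLocalRing.ResidueField A) ≠ 0)
    (h3M : DegThm (IsLocalRing.ResidueField A) M) (h3N : DegThm (IsLocalRing.ResidueField A) N)
    (gM : genusFormula M = 0) (n2M : nuTwo M = 0) (n3M : nuThree M = 0)
    (n2N : nuTwo N = 0) (n3N : nuThree N = 0) :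
    genusFF X0Emb.KK (modularFunctionFieldBar N) ≤ genusFF (IsLocalRing.ResidueField A)
      (modularFunctionFieldFullC (IsLocalRing.ResidueField A) N) := by
  have hM : (M : IsLocalRing.ResidueField A) ≠ 0 := by
    obtain ⟨c, rfl⟩ := hMN
    intro h
    rw [Nat.cast_mul, h, zero_mul] at hN
    exact hN rfl
  have hMd : DegEq A M := DegEq.of_degThm (NeZero.ne M) (degThm_KK M) h3M
  have hNd : DegEq A N := DegEq.of_degThm (NeZero.ne N) (degThm_KK N) h3N
  obtain ⟨w, hw, hwtop⟩ := exists_coord hℓ hA M hMd gM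
  have h1 : 6 * cuspCount M = dedekindPsi M + 12 := by
    rw [genusFormula, n2M, n3M] at gM
    exact numerics_M gM
  have h2 : 12 * (genusFF X0Emb.KK (modularFunctionFieldBar N) : ℤ) - 12 =
      dedekindPsi N - 6 * cuspCount N := by
    have h3 := genusFF_bar N hNd.isFF
    rw [genusFormula, n2N, n3N] at h3
    exact numerics_N h3
  exact le_genus_conc M N hMN hMd.isFF' hNd.isFF' w hw hwtop h3M h3N
    (isSeparable_jB hℓ hA N hN h3N hNd) (card_places_infty' hℓ hA M hM h3M hMd)
    (card_places_infty' hℓ hA N hN h3N hNd) h1 h2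

end Fermat.Agent.GoodRed
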