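import Fermat.Agent.GoodRed.Tower
import Fermat.Agent.GoodRed.OrbSep

/-!
# The genus inequality: abstract part
-/

set_option autoImplicit false

open AlgebraicCurve WithZero Module
open Fermat.Agent.FF
open scoped IntermediateField

namespace Fermat.Agent.GoodRed

theorem isSeparable_of_ringHoms {K F L X : Type*} [Field K] [Field F] [Algebra K F] [Field L]
    (y : F) [FiniteDimensional K⟮y⟯ F] [Finite X] (Ψ : X → (F →+* L))
    (hinj : Function.Injective Ψ) (hcard : Nat.card X = Module.finrank K⟮y⟯ F)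
    (hΨK : ∀ x x' (c : K), Ψ x (algebraMap K F c) = Ψ x' (algebraMap K F c))
    (hΨy : ∀ x x', Ψ x y = Ψ x' y) : Algebra.IsSeparable K⟮y⟯ F := by
  classical
  have := Fintype.ofFinite X
  have hX : Nonempty X := by
    by_contra hcon
    rw [not_nonempty_iff] at hcon
    rw [Nat.card_of_isEmpty] at hcard
    exact absurd hcard.symm (Module.finrank_pos (R := K⟮y⟯) (M := F)).ne'
  obtain ⟨x0⟩ := hX
  have hagree : ∀ x (e : K⟮y⟯), Ψ x (e : F) = Ψ x0 (e : F) := by
    rintro x ⟨e, he⟩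
    show Ψ x e = Ψ x0 e
    induction he using IntermediateField.adjoin_induction with
    | mem z hz => rw [Set.mem_singleton_iff.mp hz]; exact hΨy _ _
    | algebraMap c => exact hΨK _ _ _
    | add a b _ _ ha hb => rw [map_add, map_add, ha, hb]
    | inv a _ ha => rw [map_inv₀, map_inv₀, ha]
    | mul a b _ _ ha hb => rw [map_mul, map_mul, ha, hb]
  let : Algebra K⟮y⟯ L := ((Ψ x0).comp (algebraMap K⟮y⟯ F)).toAlgebra
  let Ψ' : X → (F →ₐ[K⟮y⟯] L) := fun x =>
    { Ψ x with commutes' := fun e => hagree x e }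
  have hinj' : Function.Injective Ψ' := by
    intro x x' h
    apply hinj
    ext f
    exact DFunLike.congr_fun h f
  exact isSeparable_of_embeddings Ψ' hinj' (by rw [← Nat.card_eq_fintype_card, hcard])

variable {k E F : Type*} [Field k] [Field E] [Field F] [Algebra k E] [Algebra k F] [Algebra E F]
  [IsScalarTower k E F] [IsFF k E] [IsFF k F] [IsAlgClosed k]

/-- Abstract form of the genus inequality for a tower `k(w) = E ⊂ F` over the `j`-line. -/
theorem le_genus_of_tower (w : E) (hw : Transcendental k w) (htop : k⟮w⟯ = ⊤) (j : E)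
    (hj : Transcendental k j) (j' : F) (hjj : algebraMap E F j = j')
    (hsep : Algebra.IsSeparable k⟮j'⟯ F) {cM cN ψM ψN : ℕ}
    (hcM : Nat.card {P : Place k E // 0 < P.ord j⁻¹} = cM)
    (hcN : Nat.card {v : Place k F // 0 < v.ord j'⁻¹} = cN)
    (hψM : finrank k⟮j⟯ E = ψM) (hψN : finrank k⟮j'⟯ F = ψN)
    (hM : 6 * cM = ψM + 12) {g : ℕ} (hg : 12 * (g : ℤ) - 12 = ψN - 6 * cN) :
    g ≤ genusFF k F := by
  subst hjj
  have h1 := rh_tower (F := F) w hw htop j hj
  rw [hcM, hcN] at h1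
  have h2 : ψN = ψM * finrank E F := by
    rw [← hψM, ← hψN]
    exact finrank_adjoin_algebraMap (K := k) (F := E) F j
  have h3 : ((6 * cM : ℕ) : ℤ) = (ψM + 12 : ℕ) := by rw [hM]
  push_cast at h3
  rw [h2] at hg
  push_cast at hg
  have h4 : (6 * (cM : ℤ)) * finrank E F = (ψM + 12) * finrank E F := by rw [h3]
  have h5 : (12 : ℤ) * g ≤ 12 * genusFF k F := by nlinarith
  omega

/-- The same for intermediate fields. -/
theorem le_genus_of_le {k L : Type*} [Field k] [IsAlgClosed k] [Field L] [Algebra k L]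
    (E F : IntermediateField k L) (hEF : E ≤ F) [IsFF k E] [IsFF k F] (w : E)
    (hw : Transcendental k w) (htop : k⟮w⟯ = ⊤) (j : E)
    (hj : Transcendental k j) (j' : F) (hjj : (j : L) = (j' : L))
    (hsep : Algebra.IsSeparable k⟮j'⟯ F) {cM cN ψM ψN : ℕ}
    (hcM : Nat.card {P : Place k E // 0 < P.ord j⁻¹} = cM)
    (hcN : Nat.card {v : Place k F // 0 < v.ord j'⁻¹} = cN)
    (hψM : finrank k⟮j⟯ E = ψM) (hψN : finrank k⟮j'⟯ F = ψN)
    (hM : 6 * cM = ψM + 12) {g : ℕ} (hg : 12 * (g : ℤ) - 12 = ψN - 6 * cN) :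
    g ≤ genusFF k F := by
  let _ : Algebra E F := (IntermediateField.inclusion hEF).toRingHom.toAlgebra
  have : IsScalarTower k E F := IsScalarTower.of_algebraMap_eq fun x => rfl
  exact le_genus_of_tower w hw htop j hj j' (Subtype.ext hjj) hsep hcM hcN hψM hψN hM hg

/-- numerics for the genus formula -/
theorem numerics_M {ψ c : ℕ} (h : 1 + (ψ : ℚ) / 12 - (0 : ℕ) / 4 - (0 : ℕ) / 3 - (c : ℚ) / 2 = 0) :
    6 * c = ψ + 12 := by
  have : (6 * c : ℚ) = ψ + 12 := by push_cast at h; linarith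
  exact_mod_cast this

theorem numerics_N {g ψ c : ℕ}
    (h : (g : ℚ) = 1 + (ψ : ℚ) / 12 - (0 : ℕ) / 4 - (0 : ℕ) / 3 - (c : ℚ) / 2) :
    12 * (g : ℤ) - 12 = ψ - 6 * c := by
  have : (12 * (g : ℚ) - 12) = ψ - 6 * c := by push_cast at h; linarith
  exact_mod_cast this

end Fermat.Agent.GoodRed
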