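import Fermat.Agent.GoodRed.RHLower
import Fermat.Agent.FF.Hurwitz

/-!
# Lower bound for the genus of a covering of a rational function field, with branching
over the poles of `j`
-/

set_option autoImplicit false

open AlgebraicCurve WithZero Module
open Fermat.Agent.FF
open scoped IntermediateField

namespace Fermat.Agent.GoodRed

theorem exists_residue_value {K F : Type*} [Field K] [Field F] [Algebra K F] [IsFF K F]
    [IsAlgClosed K] (v : Place K F) {y : F} (hy : 0 ≤ v.ord y) :
    ∃ a : K, y - algebraMap K F a = 0 ∨ 0 < v.ord (y - algebraMap K F a) := by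
  rcases eq_or_ne y 0 with rfl | hy0
  · exact ⟨0, Or.inl (by simp)⟩
  exact FFHur.ord_eq_zero_iff_of_residue v (algebraMap_residueField_bijective v).2
    ((FF.mem_iff_ord_nonneg v hy0).mpr hy)

variable {k E F : Type*} [Field k] [Field E] [Field F] [Algebra k E] [Algebra k F] [Algebra E F]
  [IsScalarTower k E F] [IsFF k E] [IsFF k F] [IsAlgClosed k]

theorem transcendental_sub' {K F : Type*} [Field K] [Field F] [Algebra K F] {x : F}
    (hx : Transcendental K x) (a : K) : Transcendental K (x - algebraMap K F a) := by
  intro h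
  apply hx
  have := h.add (isAlgebraic_algebraMap a)
  rwa [sub_add_cancel] at this

theorem adjoin_sub' {K F : Type*} [Field K] [Field F] [Algebra K F] (x : F) (a : K) :
    K⟮x - algebraMap K F a⟯ = K⟮x⟯ := by
  apply le_antisymm
  · rw [IntermediateField.adjoin_simple_le_iff]
    exact sub_mem (IntermediateField.mem_adjoin_simple_self K x)
      (IntermediateField.algebraMap_mem _ a)
  · rw [IntermediateField.adjoin_simple_le_iff]
    have := add_mem (IntermediateField.mem_adjoin_simple_self K (x - algebraMap K F a))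
      (IntermediateField.algebraMap_mem K⟮x - algebraMap K F a⟯ a)
    rwa [sub_add_cancel] at this

/-- a coordinate on the rational function field, finite at the given places -/
theorem exists_coordinate {w : E} (hw : Transcendental k w) (htop : k⟮w⟯ = ⊤)
    (S : Finset (Place k E)) :
    ∃ t : E, Transcendental k t ∧ k⟮t⟯ = ⊤ ∧ ∀ P ∈ S, 0 ≤ P.ord t := by
  classical
  -- values to be avoided
  have hval : ∀ P : Place k E, ∃ b : k, ∀ a : k, 0 < P.ord (w - algebraMap k E a) → a = b := by
    intro P
    by_cases h : ∃ b : k, 0 < P.ord (w - algebraMap k E b)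
    · obtain ⟨b, hb⟩ := h
      exact ⟨b, fun a ha => FFHur.eq_of_pos_of_pos P ha hb⟩
    · exact ⟨0, fun a ha => absurd ⟨a, ha⟩ h⟩
  choose b hb using hval
  have hinf : Infinite k := IsAlgClosed.instInfinite
  obtain ⟨a, ha⟩ := Infinite.exists_notMem_finset (S.image b)
  have htr := transcendental_sub' hw a
  refine ⟨(w - algebraMap k E a)⁻¹, FF.transcendental_inv htr, ?_, fun P hP => ?_⟩
  · rw [FF.isFF_nontrivial_adjoin_inv, adjoin_sub', htop]
  · rw [P.ord_inv]
    by_contra hcon
    push Not at hcon
    exact ha (Finset.mem_image.mpr ⟨P, hP, (hb P a (by omega)).symm⟩)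

theorem rh_tower (w : E) (hw : Transcendental k w) (htop : k⟮w⟯ = ⊤) (j : E)
    (hj : Transcendental k j) [Algebra.IsSeparable k⟮algebraMap E F j⟯ F] :
    (Nat.card {P : Place k E // 0 < P.ord j⁻¹} : ℤ) * finrank E F
      - Nat.card {v : Place k F // 0 < v.ord (algebraMap E F j)⁻¹} - 2 * finrank E F ≤
      2 * (genusFF k F : ℤ) - 2 := by
  classical
  have hfd : FiniteDimensional E F := IsFF.finiteDimensional_of_tower E ⟨w, hw⟩
  have hint : Algebra.IsIntegral E F := Algebra.IsIntegral.of_finite E F
  have hfinE : {P : Place k E | 0 < P.ord j⁻¹}.Finite := finite_zeros (FF.transcendental_inv hj)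
  set S := hfinE.toFinset with hS
  obtain ⟨t, ht, httop, htS⟩ := exists_coordinate hw htop S
  have htE1 : finrank k⟮t⟯ E = 1 := by
    rw [httop]
    exact IntermediateField.finrank_top
  -- values of `t` at the places of `S`
  have hc : ∀ P : Place k E, ∃ c : k, P ∈ S → 0 < P.ord (t - algebraMap k E c) := by
    intro P
    by_cases hP : P ∈ S
    · obtain ⟨c, h⟩ := exists_residue_value P (htS P hP)
      refine ⟨c, fun _ => h.resolve_left fun h0 => ?_⟩
      exact ht (sub_eq_zero.mp h0 ▸ isAlgebraic_algebraMap c)
    · exact ⟨0, fun h => absurd h hP⟩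
  choose c hc using hc
  have htr : ∀ a : k, Transcendental k (t - algebraMap k E a) := fun a => transcendental_sub' ht a
  -- uniqueness of the place with `t = c`
  have huniq : ∀ (a : k) (P Q : Place k E), 0 < P.ord (t - algebraMap k E a) →
      0 < Q.ord (t - algebraMap k E a) → P = Q := by
    intro a P Q hP hQ
    by_contra hne
    have h1 := sum_ord_eq_finrank (K := k) (htr a)
    have h2 : finrank k⟮t - algebraMap k E a⟯ E = 1 := by
      rw [adjoin_sub']; exact htE1
    rw [h2] at h1
    have h3 : ({P, Q} : Finset (Place k E)) ⊆ (finite_zeros (htr a)).toFinset := by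
      intro R hR
      rw [Set.Finite.mem_toFinset]
      rcases Finset.mem_insert.mp hR with rfl | hR
      · exact hP
      · rw [Finset.mem_singleton.mp hR]; exact hQ
    have h4 : ∑ v ∈ ({P, Q} : Finset (Place k E)), v.ord (t - algebraMap k E a) ≤
        ∑ v ∈ (finite_zeros (htr a)).toFinset, v.ord (t - algebraMap k E a) := by
      refine Finset.sum_le_sum_of_subset_of_nonneg h3 fun v hv _ => ?_
      rw [Set.Finite.mem_toFinset] at hv
      exact le_of_lt hv
    rw [Finset.sum_pair hne, h1] at h4
    push_cast at h4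
    omega
  -- the function upstairs
  set t' := algebraMap E F t with ht'
  have ht'tr : Transcendental k t' :=
    (transcendental_algebraMap_iff (algebraMap E F).injective).mpr ht
  have htr' : ∀ a : k, Transcendental k (t' - algebraMap k F a) :=
    fun a => transcendental_sub' ht'tr a
  have hmap : ∀ a : k, t' - algebraMap k F a = algebraMap E F (t - algebraMap k E a) := by
    intro a
    rw [map_sub, ← IsScalarTower.algebraMap_apply]
  have hn' : finrank k⟮t'⟯ F = finrank E F := by
    rw [ht', finrank_adjoin_algebraMap, htE1, one_mul]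
  have hn'' : ∀ a : k, finrank k⟮t' - algebraMap k F a⟯ F = finrank E F := by
    intro a
    rw [adjoin_sub']; exact hn'
  let VP : Place k E → Finset (Place k F) := fun P => (finite_zeros (htr' (c P))).toFinset
  have hVP : ∀ P v, v ∈ VP P ↔ 0 < v.ord (t' - algebraMap k F (c P)) := by
    intro P v
    simp only [VP, Set.Finite.mem_toFinset]
    exact Iff.rfl
  -- restriction of places in `VP P`
  have hrestr : ∀ P ∈ S, ∀ v ∈ VP P, v.restrict E = P := by
    intro P hP v hv
    rw [hVP, hmap, v.ord_restrict] at hv
    have hpos : (0 : ℤ) < Place.ramificationIndex (F := E) v := by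
      exact_mod_cast v.ramificationIndex_pos (F := E)
    exact huniq (c P) _ _ ((mul_pos_iff_of_pos_left hpos).mp hv) (hc P hP)
  have hdisj : (S : Set (Place k E)).PairwiseDisjoint VP := by
    intro P hP Q hQ hPQ
    rw [Function.onFun, Finset.disjoint_left]
    intro v hv hv'
    exact hPQ ((hrestr P hP v hv).symm.trans (hrestr Q hQ v hv'))
  set V := S.biUnion VP with hV
  -- the value function
  let cv : Place k F → k := fun v => c (v.restrict E)
  have hcv : ∀ P ∈ S, ∀ v ∈ VP P, cv v = c P := by
    intro P hP v hv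
    show c (v.restrict E) = c P
    rw [hrestr P hP v hv]
  have hsep : Algebra.IsSeparable k⟮t'⟯ F := by
    have hle : k⟮algebraMap E F j⟯ ≤ k⟮t'⟯ := by
      rw [IntermediateField.adjoin_simple_le_iff]
      have h1 : j ∈ k⟮t⟯ := by rw [httop]; trivial
      have h2 : k⟮t⟯.map (IsScalarTower.toAlgHom k E F) = k⟮t'⟯ := by
        rw [IntermediateField.adjoin_map, Set.image_singleton]
        rfl
      rw [← h2]
      exact ⟨j, h1, rfl⟩
    let _ : Algebra k⟮algebraMap E F j⟯ k⟮t'⟯ :=
      (IntermediateField.inclusion hle).toRingHom.toAlgebra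
    have : IsScalarTower k⟮algebraMap E F j⟯ k⟮t'⟯ F := IsScalarTower.of_algebraMap_eq fun x => rfl
    exact Algebra.isSeparable_tower_top_of_isSeparable k⟮algebraMap E F j⟯ k⟮t'⟯ F
  have hrh := rh_lower t' ht'tr V cv (by
    intro v hv
    obtain ⟨P, hP, hvP⟩ := Finset.mem_biUnion.mp hv
    rw [hcv P hP v hvP]
    exact (hVP P v).mp hvP)
  rw [hn'] at hrh
  have hsum : ∑ v ∈ V, (v.ord (t' - algebraMap k F (cv v)) - 1) =
      (S.card : ℤ) * finrank E F - V.card := by
    rw [Finset.sum_sub_distrib]
    congr 1
    · rw [hV, Finset.sum_biUnion hdisj]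
      have h1 : ∀ P ∈ S, ∑ v ∈ VP P, v.ord (t' - algebraMap k F (cv v)) = finrank E F := by
        intro P hP
        rw [← hn'' (c P), ← sum_ord_eq_finrank (K := k) (htr' (c P))]
        refine Finset.sum_congr rfl fun v hv => ?_
        rw [hcv P hP v hv]
      rw [Finset.sum_congr rfl h1, Finset.sum_const, nsmul_eq_mul]
    · simp
  rw [hsum] at hrh
  have hScard : (S.card : ℤ) = Nat.card {P : Place k E // 0 < P.ord j⁻¹} := by
    congr 1
    rw [hS]
    exact (Nat.card_eq_card_finite_toFinset hfinE).symm
  have hfinF : {v : Place k F | 0 < v.ord (algebraMap E F j)⁻¹}.Finite :=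
    finite_zeros (FF.transcendental_inv
      ((transcendental_algebraMap_iff (algebraMap E F).injective).mpr hj))
  have hVcard : V.card ≤ Nat.card {v : Place k F // 0 < v.ord (algebraMap E F j)⁻¹} := by
    have h1 : Nat.card {v : Place k F // 0 < v.ord (algebraMap E F j)⁻¹} = hfinF.toFinset.card :=
      Nat.card_eq_card_finite_toFinset hfinF
    rw [h1]
    refine Finset.card_le_card fun v hv => ?_
    obtain ⟨P, hP, hvP⟩ := Finset.mem_biUnion.mp hv
    rw [Set.Finite.mem_toFinset]
    show 0 < v.ord (algebraMap E F j)⁻¹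
    rw [← map_inv₀, v.ord_restrict, hrestr P hP v hvP]
    have hP' : 0 < P.ord j⁻¹ := by
      have := hP
      rw [hS, Set.Finite.mem_toFinset] at this
      exact this
    have hpos : (0 : ℤ) < Place.ramificationIndex (F := E) v := by
      exact_mod_cast v.ramificationIndex_pos (F := E)
    exact mul_pos hpos hP'
  rw [← hScard]
  have : (V.card : ℤ) ≤ (Nat.card {v : Place k F // 0 < v.ord (algebraMap E F j)⁻¹} : ℤ) := by
    exact_mod_cast hVcard
  linarith

end Fermat.Agent.GoodRed
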